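import Mathlib

/-!
# S33, top layer, part 1 (helper93): algebra on one layer of the tower

`W` is a module over a commutative ring `R` (the abstract Hecke algebra) killed by `p ^ k`, with a
commuting action `ρ` of a group `G`.  `Rep ρ g a Q` says that `g + a g⁻¹` acts as the scalar `Q`.

`K` is an additive subgroup (the classes which are trivial at the valuation `v_∞`), `E • W` the
`θ`-part.  The only information on `K` is on its `p`-torsion.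
-/

set_option autoImplicit false

namespace Fermat.Agent.S33

variable {R : Type*} [CommRing R] {W : Type*} [AddCommGroup W] [Module R W]
  {G : Type*} [Group G] (ρ : G →* Module.End R W)

/-- `g + a g⁻¹` acts as the scalar `Q`. -/
def Rep (g : G) (a : ℕ) (Q : R) : Prop := ∀ v : W, ρ g v + a • ρ g⁻¹ v = Q • v

theorem rho_inv_apply (g : G) (v : W) : ρ g⁻¹ (ρ g v) = v := by
  rw [← Module.End.mul_apply, ← map_mul, inv_mul_cancel, map_one, Module.End.one_apply]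

theorem rho_apply_inv (g : G) (v : W) : ρ g (ρ g⁻¹ v) = v := by
  rw [← Module.End.mul_apply, ← map_mul, mul_inv_cancel, map_one, Module.End.one_apply]

theorem rho_mul_apply (g h : G) (v : W) : ρ (g * h) v = ρ g (ρ h v) := by
  rw [map_mul, Module.End.mul_apply]

omit [Module R W] in
theorem exists_ptorsion {p k : ℕ} {x : W} (hx : x ≠ 0) (hk : (p ^ k) • x = 0) :
    ∃ j : ℕ, (p ^ j) • x ≠ 0 ∧ p • ((p ^ j) • x) = 0 := by
  classical
  have hex : ∃ j, (p ^ j) • x = 0 := ⟨k, hk⟩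
  have h0 : Nat.find hex ≠ 0 := by
    intro h
    have h1 := Nat.find_spec hex
    rw [h] at h1
    simp at h1
    exact hx h1
  obtain ⟨j, hj⟩ := Nat.exists_eq_succ_of_ne_zero h0
  refine ⟨j, Nat.find_min hex (by omega), ?_⟩
  have h1 := Nat.find_spec hex
  rw [hj, Nat.succ_eq_add_one, pow_succ', mul_smul] at h1
  exact h1

theorem exists_bezout {p a : ℕ} (hp : p.Prime) (ha : ¬ a ≡ 1 [MOD p]) :
    ∃ b c : ℤ, b * ((a : ℤ) - 1) + c * p = 1 := by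
  have h1 : ¬ (p : ℤ) ∣ (a : ℤ) - 1 := by
    intro h
    apply ha
    apply Nat.ModEq.symm
    rw [Nat.modEq_iff_dvd]
    simpa using h
  have h2 : IsCoprime (p : ℤ) ((a : ℤ) - 1) :=
    ((Nat.prime_iff_prime_int.mp hp).irreducible.coprime_iff_not_dvd).2 h1
  obtain ⟨u, v, huv⟩ := h2
  exact ⟨v, u, by linarith⟩

omit [Module R W] in
theorem eq_zero_of_nsmul_eq {p a : ℕ} (hp : p.Prime) (ha : ¬ a ≡ 1 [MOD p]) {x : W}
    (hpx : p • x = 0) (hx : a • x = x) : x = 0 := by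
  obtain ⟨b, c, hbc⟩ := exists_bezout hp ha
  have h1 : ((a : ℤ) - 1) • x = 0 := by
    rw [sub_smul, natCast_zsmul, one_smul, hx, sub_self]
  have h2 : (p : ℤ) • x = 0 := by rw [natCast_zsmul, hpx]
  calc x = (1 : ℤ) • x := (one_smul _ _).symm
    _ = (b * ((a : ℤ) - 1) + c * p) • x := by rw [hbc]
    _ = 0 := by rw [add_smul, mul_smul, mul_smul, h1, h2, smul_zero, smul_zero, add_zero]


/-- The hypotheses on `(E, K, s, a)`: `K` is stable under `s`, contains `(s - 1) (E • W)`, and `s`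
acts as `a` on the `p`-torsion of `K ∩ E • W`. -/
structure OrdSetup (p k : ℕ) (E : R) (K : AddSubgroup W) (s : G) (a : ℕ) : Prop where
  pk : ∀ w : W, (p ^ k) • w = 0
  stable : ∀ x ∈ K, ρ s x ∈ K
  sub : ∀ w : W, ρ s (E • w) - E • w ∈ K
  tors : ∀ x ∈ K, p • x = 0 → (∃ w, x = E • w) → ρ s x = a • x

variable {ρ}

theorem Rep.quad {s : G} {a : ℕ} {Qs : R} (hQs : Rep ρ s a Qs) (m : W) :
    (Qs - 1 - (a : R)) • ρ s m = ρ s (ρ s m - m) - a • (ρ s m - m) := by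
  have h := hQs (ρ s m)
  rw [rho_inv_apply] at h
  rw [sub_smul, sub_smul, one_smul, Nat.cast_smul_eq_nsmul, ← h, map_sub, smul_sub]
  abel

variable {p k : ℕ} {E : R} {K : AddSubgroup W} {s : G} {a : ℕ}

theorem OrdSetup.mem (h : OrdSetup ρ p k E K s a) {Qs : R} (hQs : Rep ρ s a Qs) (w : W) :
    (Qs - 1 - (a : R)) • E • w ∈ K := by
  have h1 : E • w = ρ s (E • ρ s⁻¹ w) := by rw [map_smul, rho_apply_inv]
  rw [h1, hQs.quad]
  have h2 := h.sub (ρ s⁻¹ w)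
  exact K.sub_mem (h.stable _ h2) (K.nsmul_mem h2 a)

/-- **Step 1.**  If `G` does not act commutatively on any nonzero piece of `E • W`, then
`(s - 1) (s - a) = 0` on `E • W`, i.e. the scalar `Q_s - 1 - a` kills `E • W`. -/
theorem OrdSetup.step1 (hp : p.Prime) (h : OrdSetup ρ p k E K s a) (ha : ¬ a ≡ 1 [MOD p])
    {Qs : R} (hQs : Rep ρ s a Qs)
    (hrep : ∀ g : G, ∃ (b : ℕ) (Q Q' : R), Rep ρ g b Q ∧ Rep ρ (s * g) (a * b) Q')
    (h1 h2 h3 : G) (c : ℕ) (Q123 Q213 : R) (r123 : Rep ρ (h1 * h2 * h3) c Q123)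
    (r213 : Rep ρ (h2 * h1 * h3) c Q213)
    (hinj : ∀ w : W, (Q123 - Q213) • E • w = 0 → E • w = 0) (w : W) :
    (Qs - 1 - (a : R)) • E • w = 0 := by
  set δ : R := Qs - 1 - (a : R) with hδ
  by_contra hne
  obtain ⟨j, hj1, hj2⟩ := exists_ptorsion hne (h.pk _)
  -- the subgroup `Y₁`
  let Y : W → Prop := fun x => (∃ w, x = δ • E • w) ∧ p • x = 0
  have hYρ : ∀ (g : G) (x : W), Y x → Y (ρ g x) := by
    rintro g x ⟨⟨w, rfl⟩, hx⟩
    exact ⟨⟨ρ g w, by rw [map_smul, map_smul]⟩, by rw [← map_nsmul, hx, map_zero]⟩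
  have hYR : ∀ (r : R) (x : W), Y x → Y (r • x) := by
    rintro r x ⟨⟨w, rfl⟩, hx⟩
    exact ⟨⟨r • w, by rw [smul_comm r δ, smul_comm r E]⟩, by rw [smul_comm, hx, smul_zero]⟩
  have hYs : ∀ x, Y x → ρ s x = a • x := by
    rintro x ⟨⟨w, rfl⟩, hx⟩
    exact h.tors _ (h.mem hQs w) hx ⟨δ • w, by rw [smul_comm]⟩
  have hYs' : ∀ x, Y x → a • ρ s⁻¹ x = x := by
    intro x hx
    have := hYs _ (hYρ s⁻¹ x hx)
    rw [rho_apply_inv] at this
    exact this.symm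
  -- every element of `G` acts on `Y₁` by a scalar
  have hscal : ∀ g : G, ∃ r : R, ∀ x, Y x → ρ g x = r • x := by
    intro g
    obtain ⟨b, Q, Q', hQ, hQ'⟩ := hrep g
    obtain ⟨u, v, huv⟩ := exists_bezout hp ha
    refine ⟨(u : R) * (Q' - Q), fun x hx => ?_⟩
    have e1 := hQ x
    have e2 := hQ' x
    rw [rho_mul_apply, mul_inv_rev, rho_mul_apply, hYs _ (hYρ g x hx), mul_smul, ← map_nsmul,
      smul_comm, ← map_nsmul (ρ g⁻¹), hYs' x hx] at e2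
    rw [map_nsmul] at e2
    have e3 : (Q' - Q) • x = ((a : ℤ) - 1) • ρ g x := by
      rw [sub_smul, ← e1, ← e2, sub_smul, natCast_zsmul, one_smul]
      abel
    have e4 : (p : ℤ) • ρ g x = 0 := by
      rw [natCast_zsmul, ← map_nsmul, hx.2, map_zero]
    calc ρ g x = (1 : ℤ) • ρ g x := (one_smul _ _).symm
      _ = (u * ((a : ℤ) - 1) + v * p) • ρ g x := by rw [huv]
      _ = u • (Q' - Q) • x := by
          rw [add_smul, mul_smul, mul_smul, e4, smul_zero, add_zero, e3]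
      _ = ((u : R) * (Q' - Q)) • x := by rw [mul_smul, Int.cast_smul_eq_zsmul]
  obtain ⟨r1, hr1⟩ := hscal h1
  obtain ⟨r2, hr2⟩ := hscal h2
  obtain ⟨r3, hr3⟩ := hscal h3
  have hA : ∀ x, Y x → ρ (h1 * h2 * h3) x = ρ (h2 * h1 * h3) x := by
    intro x hx
    rw [rho_mul_apply, rho_mul_apply, rho_mul_apply, rho_mul_apply, hr3 x hx,
      hr2 _ (hYR _ _ hx), hr1 _ (hYR _ _ (hYR _ _ hx)), hr1 _ (hYR _ _ hx),
      hr2 _ (hYR _ _ (hYR _ _ hx)), smul_comm r1 r2]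
  have hB : ∀ x, Y x → ρ (h1 * h2 * h3)⁻¹ x = ρ (h2 * h1 * h3)⁻¹ x := by
    intro x hx
    have e := hA _ (hYρ (h1 * h2 * h3)⁻¹ x hx)
    rw [rho_apply_inv] at e
    conv_rhs => rw [e]
    rw [rho_inv_apply]
  have hx0 : Y ((p ^ j) • δ • E • w) :=
    ⟨⟨(p ^ j) • w, by rw [smul_comm _ δ, smul_comm _ E]⟩, hj2⟩
  apply hj1
  have e1 := r123 ((p ^ j) • δ • E • w)
  have e2 := r213 ((p ^ j) • δ • E • w)
  rw [hA _ hx0, hB _ hx0, e2] at e1
  have e3 : (p ^ j) • δ • E • w = E • ((p ^ j) • δ • w) := by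
    rw [smul_comm E, smul_comm E]
  rw [e3]
  apply hinj
  rw [← e3, sub_smul, e1, sub_self]


variable (ρ) in
/-- `σ` acts as the integer `b` on `K ∩ E • W`. -/
def ActsOn (E : R) (K : AddSubgroup W) (σ : G) (b : ℕ) : Prop :=
  ∀ x ∈ K, (∃ w, x = E • w) → ρ σ x = b • x

/-- **Step 2.**  `s` acts as `a` on `K ∩ E • W`. -/
theorem OrdSetup.step2 (hp : p.Prime) (h : OrdSetup ρ p k E K s a) (ha : ¬ a ≡ 1 [MOD p])
    {Qs : R} (hQs : Rep ρ s a Qs) (hδ : ∀ w : W, (Qs - 1 - (a : R)) • E • w = 0) :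
    ActsOn ρ E K s a := by
  rintro x hxK ⟨w, rfl⟩
  rw [← sub_eq_zero]
  by_contra hne
  obtain ⟨j, hj1, hj2⟩ := exists_ptorsion hne (h.pk _)
  have hK : ρ s (E • w) - a • E • w ∈ K := K.sub_mem (h.stable _ hxK) (K.nsmul_mem hxK a)
  have hfix : ρ s (ρ s (E • w) - a • E • w) = ρ s (E • w) - a • E • w := by
    have e := hQs.quad (E • w)
    rw [map_smul, hδ] at e
    rw [← map_smul] at e
    rw [map_sub, map_nsmul]
    rw [map_sub, smul_sub] at e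
    rw [← sub_eq_zero, e]
    abel
  apply hj1
  apply eq_zero_of_nsmul_eq hp ha hj2
  rw [← h.tors _ (K.nsmul_mem hK _) hj2
    ⟨(p ^ j) • (ρ s w - a • w), by
      rw [smul_comm E, map_smul, smul_sub E, smul_comm E a]⟩, map_nsmul, hfix]

theorem ActsOn.inv {σ : G} {b : ℕ} (hσ : ActsOn ρ E K σ b) (hK : ∀ x ∈ K, ρ σ⁻¹ x ∈ K) :
    ∀ x ∈ K, (∃ w, x = E • w) → b • ρ σ⁻¹ x = x := by
  rintro x hx ⟨w, rfl⟩
  have := hσ _ (hK _ hx) ⟨ρ σ⁻¹ w, by rw [map_smul]⟩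
  rw [rho_apply_inv] at this
  exact this.symm

/-- **Step 3.**  The alternating sum of four scalars attached to `h (s - a) g (σ - 1)` kills
`E • W`. -/
theorem step3 {σ g h : G} {aσ ag ah : ℕ} (hs : ActsOn ρ E K s a) (hσ : ActsOn ρ E K σ aσ)
    (subσ : ∀ w : W, ρ σ (E • w) - E • w ∈ K) (subs : ∀ w : W, ρ s⁻¹ (E • w) - E • w ∈ K)
    (hg : ∀ x ∈ K, ρ g x ∈ K) (hg' : ∀ x ∈ K, ρ g⁻¹ x ∈ K) (hσ' : ∀ x ∈ K, ρ σ⁻¹ x ∈ K)
    {Q1 Q2 Q3 Q4 : R} (R1 : Rep ρ (h * s * g * σ) (ah * a * ag * aσ) Q1)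
    (R2 : Rep ρ (h * s * g) (ah * a * ag) Q2) (R3 : Rep ρ (h * g * σ) (ah * ag * aσ) Q3)
    (R4 : Rep ρ (h * g) (ah * ag) Q4) (w : W) :
    (Q1 - Q2 - (a : R) * Q3 + (a : R) * Q4) • E • w = 0 := by
  have F1 : ρ s (ρ g (ρ σ (E • w) - E • w)) = a • ρ g (ρ σ (E • w) - E • w) :=
    hs _ (hg _ (subσ w)) ⟨ρ g (ρ σ w - w), by simp only [map_sub, map_smul, smul_sub]⟩
  have F2 : aσ • ρ σ⁻¹ (ρ g⁻¹ (ρ s⁻¹ (E • ρ h⁻¹ w) - E • ρ h⁻¹ w)) =
      ρ g⁻¹ (ρ s⁻¹ (E • ρ h⁻¹ w) - E • ρ h⁻¹ w) :=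
    hσ.inv hσ' _ (hg' _ (subs _))
      ⟨ρ g⁻¹ (ρ s⁻¹ (ρ h⁻¹ w) - ρ h⁻¹ w), by simp only [map_sub, map_smul, smul_sub]⟩
  have F1' := congrArg (ρ h) F1
  rw [add_smul, sub_smul, sub_smul, mul_smul, mul_smul, Nat.cast_smul_eq_nsmul, ← R1, ← R2, ← R3,
    ← R4]
  simp only [rho_mul_apply, mul_inv_rev, map_sub, map_nsmul, map_smul] at F1' F2 ⊢
  simp only [← natCast_zsmul] at F1' F2 ⊢
  push_cast
  linear_combination (norm := module) F1' + ((ah : ℤ) * a * ag) • F2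

end Fermat.Agent.S33
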