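import Fermat.Agent.S33.TopDefs
import Fermat.Agent.Lib.InertiaField.Core

/-!
# S33: inertia above an odd prime `p` acts non trivially on `μ_p`  (owner: helper293)

If the inertia group of `P ∣ p` fixed a primitive `p`-th root of unity `ζ`, then `ζ - 1`, an
algebraic integer of the maximal ideal of `P`, would be divisible by `p` in `P` (the inertia field
is unramified), whereas `p = unit * (ζ - 1) ^ (p - 1)` and `p - 1 > 1`.
-/

set_option autoImplicit false

namespace Fermat.Agent.S33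

open Fermat.Agent.S30 Fermat.Agent.GAL Polynomial

namespace InertiaCycloAux

local notation "Qb" => AlgebraicClosure ℚ

variable {p : ℕ}

theorem mem_of_pow_eq_one (P : ValuationSubring Qb) {μ : Qb} {n : ℕ} (hn : 0 < n)
    (hμ : μ ^ n = 1) : μ ∈ P := by
  rcases P.mem_or_inv_mem μ with h | h
  · exact h
  · have h1 : μ = μ⁻¹ ^ (n - 1) := by
      have hμ0 : μ ≠ 0 := by
        rintro rfl
        rw [zero_pow hn.ne'] at hμ
        exact zero_ne_one hμ
      obtain ⟨m, rfl⟩ := Nat.exists_eq_succ_of_ne_zero hn.ne'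
      rw [Nat.succ_sub_one, inv_pow]
      rw [pow_succ] at hμ
      field_simp
      rw [mul_comm]
      exact hμ
    rw [h1]
    exact pow_mem h _

/-- `1 - μ` divides `1 - ν` when `ν` is a power of `μ`. -/
theorem val_one_sub_le (P : ValuationSubring Qb) (hp : 0 < p) {μ ν : Qb}
    (hμ : IsPrimitiveRoot μ p) (hν : ν ^ p = 1) :
    P.valuation (1 - ν) ≤ P.valuation (1 - μ) := by
  have : NeZero p := ⟨hp.ne'⟩
  obtain ⟨i, -, rfl⟩ := hμ.eq_pow_of_pow_eq_one hν
  have h1 : 1 - μ ^ i = (∑ j ∈ Finset.range i, μ ^ j) * (1 - μ) := by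
    have := geom_sum_mul μ i
    linear_combination this
  have hμP : μ ∈ P := mem_of_pow_eq_one P hp hμ.pow_eq_one
  have h2 : (∑ j ∈ Finset.range i, μ ^ j) ∈ P := sum_mem fun j _ => pow_mem hμP j
  rw [h1, map_mul]
  calc P.valuation (∑ j ∈ Finset.range i, μ ^ j) * P.valuation (1 - μ)
      ≤ 1 * P.valuation (1 - μ) := by
        gcongr
        exact (P.valuation_le_one_iff _).2 h2
    _ = _ := one_mul _

theorem val_natCast_eq (P : ValuationSubring Qb) (hp : p.Prime) {ζ : Qb}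
    (hζ : IsPrimitiveRoot ζ p) : P.valuation (p : Qb) = P.valuation (1 - ζ) ^ (p - 1) := by
  have : Fact p.Prime := ⟨hp⟩
  have : NeZero p := ⟨hp.ne_zero⟩
  have h1 : (p : Qb) = ∏ μ ∈ primitiveRoots p Qb, (1 - μ) := by
    have h2 := congrArg (eval 1) (cyclotomic_eq_prod_X_sub_primitiveRoots hζ)
    rw [eval_one_cyclotomic_prime, eval_prod] at h2
    simpa using h2
  rw [h1, map_prod]
  have h3 : ∀ μ ∈ primitiveRoots p Qb, P.valuation (1 - μ) = P.valuation (1 - ζ) := by
    intro μ hμ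
    have hμ' : IsPrimitiveRoot μ p := (mem_primitiveRoots hp.pos).1 hμ
    exact le_antisymm (val_one_sub_le P hp.pos hζ hμ'.pow_eq_one)
      (val_one_sub_le P hp.pos hμ' hζ.pow_eq_one)
  rw [Finset.prod_congr rfl h3, Finset.prod_const, hζ.card_primitiveRoots, Nat.totient_prime hp]

/-- Some element of the inertia group moves `ζ`. -/
theorem exists_inertia_ne (hp : p.Prime) (hp2 : p ≠ 2) (P : ValuationSubring Qb)
    (hP : P.LiesOverPrime p) {ζ : Qb} (hζ : IsPrimitiveRoot ζ p) :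
    ∃ s ∈ P.inertiaSubgroupIn ℚ, s ζ ≠ ζ := by
  by_contra hcon
  push Not at hcon
  have hval := val_natCast_eq P hp hζ
  have hplt : P.valuation (p : Qb) < 1 := (P.mem_nonunits_iff).1 hP
  set c := P.valuation (1 - ζ) with hc
  have hp3 : 1 < p - 1 := by
    have := hp.two_le
    omega
  have hc1 : c < 1 := by
    by_contra h
    rw [not_lt] at h
    rw [hval] at hplt
    exact absurd (one_le_pow₀ h) (not_le.2 hplt)
  have hc0 : 0 < c := by
    rw [zero_lt_iff, hc, Valuation.ne_zero_iff, sub_ne_zero]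
    exact fun h => hζ.ne_one hp.one_lt h.symm
  have hx : ζ - 1 ∈ P.nonunits := by
    rw [P.mem_nonunits_iff, ← Valuation.map_sub_swap]
    exact hc1
  have hint : IsIntegral ℤ (ζ - 1) := (hζ.isIntegral hp.pos).sub isIntegral_one
  have hdiv := Fermat.Agent.Lib.InertiaField.div_mem_of_isIntegral P p hp hP (ζ - 1) hint hx
    (fun τ hτ => by rw [map_sub, map_one, hcon τ hτ])
  rw [← P.valuation_le_one_iff, map_div₀, ← Valuation.map_sub_swap, ← hc, hval] at hdiv
  have h4 : c ≤ c ^ (p - 1) := by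
    rwa [div_le_one₀ (pow_pos hc0 _)] at hdiv
  exact absurd h4 (not_le.2 (pow_lt_self_of_lt_one₀ hc0 hc1 hp3))

end InertiaCycloAux

open InertiaCycloAux in
/-- Inertia above an odd prime `p` acts non trivially on the `p`-th roots of unity. -/
theorem inertiaCyclo {p : ℕ} (hp : p.Prime) (hp2 : p ≠ 2) : InertiaCyclo p := by
  intro P hP
  have : Fact p.Prime := ⟨hp⟩
  obtain ⟨ζ, hζ⟩ := exists_primRoot p 1
  rw [pow_one] at hζ
  obtain ⟨s, hs, hsζ⟩ := exists_inertia_ne hp hp2 P hP hζ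
  obtain ⟨a, ha⟩ := exists_isCyc p 1 s
  refine ⟨s, hs, a, ha, fun hmod => hsζ ?_⟩
  have h1 : s ζ = ζ ^ a := ha ζ (by rw [pow_one]; exact hζ.pow_eq_one)
  rw [h1]
  have h2 : ζ ^ a = ζ ^ 1 := by
    have hfin : IsOfFinOrder ζ := isOfFinOrder_iff_pow_eq_one.mpr ⟨p, hp.pos, hζ.pow_eq_one⟩
    rw [hfin.pow_eq_pow_iff_modEq, ← hζ.eq_orderOf]
    exact hmod
  rw [h2, pow_one]

end Fermat.Agent.S33
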