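import Fermat.Agent.S33.TopAlg

/-!
# S33, top layer, second version, part 1 (helper45): algebra on one layer of the tower

Same setting as `TopAlg.lean`, but the only information on the `p`-torsion of `K ∩ E • W` is a
FIXED-VECTOR statement: `s x = x → x = 0`.  The price is the extra hypothesis that the scalar
`Q_s - 1 - a` is nilpotent on `E • W` (it comes from the residual ordinarity).
-/

set_option autoImplicit false

namespace Fermat.Agent.S33

variable {R : Type*} [CommRing R] {W : Type*} [AddCommGroup W] [Module R W]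
  {G : Type*} [Group G] (ρ : G →* Module.End R W)

/-- The hypotheses on `(E, K, s)`: `K` is stable under `s`, contains `(s - 1) (E • W)`, and `s`
has no nonzero fixed vector in the `p`-torsion of `K ∩ E • W`. -/
structure OrdSetup' (p k : ℕ) (E : R) (K : AddSubgroup W) (s : G) : Prop where
  pk : ∀ w : W, (p ^ k) • w = 0
  stable : ∀ x ∈ K, ρ s x ∈ K
  sub : ∀ w : W, ρ s (E • w) - E • w ∈ K
  fix : ∀ x ∈ K, p • x = 0 → (∃ w, x = E • w) → ρ s x = x → x = 0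

variable {ρ}

variable {p k : ℕ} {E : R} {K : AddSubgroup W} {s : G} {a : ℕ}

theorem OrdSetup'.mem (h : OrdSetup' ρ p k E K s) {Qs : R} (hQs : Rep ρ s a Qs) (w : W) :
    (Qs - 1 - (a : R)) • E • w ∈ K := by
  have h1 : E • w = ρ s (E • ρ s⁻¹ w) := by rw [map_smul, rho_apply_inv]
  rw [h1, hQs.quad]
  have h2 := h.sub (ρ s⁻¹ w)
  exact K.sub_mem (h.stable _ h2) (K.nsmul_mem h2 a)

/-- If the scalar `Q_s - 1 - a` kills `m`, then `(s - a) m` is fixed by `s`. -/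
theorem Rep.fixed {Qs : R} (hQs : Rep ρ s a Qs) {m : W} (hm : (Qs - 1 - (a : R)) • m = 0) :
    ρ s (ρ s m - a • m) = ρ s m - a • m := by
  have e := hQs.quad m
  rw [← map_smul, hm, map_zero] at e
  rw [map_sub, map_nsmul]
  rw [map_sub, smul_sub] at e
  rw [← sub_eq_zero, e]
  abel

theorem exists_last_pow {δ : R} {x : W} (hx : δ • x ≠ 0) (hn : ∃ n : ℕ, δ ^ n • x = 0) :
    ∃ n : ℕ, δ ^ (n + 1) • x ≠ 0 ∧ δ • δ ^ (n + 1) • x = 0 := by
  classical
  have hspec := Nat.find_spec hn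
  have h0 : Nat.find hn ≠ 0 := by
    intro h
    rw [h, pow_zero, one_smul] at hspec
    exact hx (by rw [hspec, smul_zero])
  have h1 : Nat.find hn ≠ 1 := by
    intro h
    rw [h, pow_one] at hspec
    exact hx hspec
  obtain ⟨n, hn'⟩ : ∃ n, Nat.find hn = n + 2 := ⟨Nat.find hn - 2, by omega⟩
  refine ⟨n, Nat.find_min hn (by omega), ?_⟩
  rw [← mul_smul, ← pow_succ', ← hn']
  exact hspec

/-- **Step 1'.**  If `G` does not act commutatively on any nonzero piece of `E • W` and the scalar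
`Q_s - 1 - a` is nilpotent on `E • W`, then it kills `E • W`, i.e. `(s - 1) (s - a) = 0` on
`E • W`. -/
theorem OrdSetup'.step1 (hp : p.Prime) (h : OrdSetup' ρ p k E K s) (ha : ¬ a ≡ 1 [MOD p])
    {Qs : R} (hQs : Rep ρ s a Qs)
    (hnil : ∀ w : W, ∃ n : ℕ, (Qs - 1 - (a : R)) ^ n • E • w = 0)
    (hrep : ∀ g : G, ∃ (b : ℕ) (Q Q' : R), Rep ρ g b Q ∧ Rep ρ (s * g) (a * b) Q')
    (h1 h2 h3 : G) (c : ℕ) (Q123 Q213 : R) (r123 : Rep ρ (h1 * h2 * h3) c Q123)
    (r213 : Rep ρ (h2 * h1 * h3) c Q213)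
    (hinj : ∀ w : W, (Q123 - Q213) • E • w = 0 → E • w = 0) (w : W) :
    (Qs - 1 - (a : R)) • E • w = 0 := by
  set δ : R := Qs - 1 - (a : R) with hδ
  by_contra hne
  obtain ⟨n, hn1, hn2⟩ := exists_last_pow hne (hnil w)
  obtain ⟨j, hj1, hj2⟩ := exists_ptorsion hn1 (h.pk _)
  -- the subgroup `Y₁`
  let Y : W → Prop := fun x => (∃ w, x = δ • E • w) ∧ p • x = 0 ∧ δ • x = 0
  have hYρ : ∀ (g : G) (x : W), Y x → Y (ρ g x) := by
    rintro g x ⟨⟨w, rfl⟩, hx, hx'⟩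
    exact ⟨⟨ρ g w, by rw [map_smul, map_smul]⟩, by rw [← map_nsmul, hx, map_zero],
      by rw [← map_smul, hx', map_zero]⟩
  have hYR : ∀ (r : R) (x : W), Y x → Y (r • x) := by
    rintro r x ⟨⟨w, rfl⟩, hx, hx'⟩
    exact ⟨⟨r • w, by rw [smul_comm r δ, smul_comm r E]⟩, by rw [smul_comm, hx, smul_zero],
      by rw [smul_comm, hx', smul_zero]⟩
  have hYs : ∀ x, Y x → ρ s x = a • x := by
    rintro x ⟨⟨w, rfl⟩, hx, hx'⟩
    rw [← sub_eq_zero]
    have hK : δ • E • w ∈ K := h.mem hQs w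
    refine h.fix _ (K.sub_mem (h.stable _ hK) (K.nsmul_mem hK a)) ?_
      ⟨ρ s (δ • w) - a • δ • w, ?_⟩ (hQs.fixed hx')
    · rw [smul_sub, ← map_nsmul, hx, map_zero, smul_comm, hx, smul_zero, sub_zero]
    · rw [smul_sub, ← map_smul, smul_comm E δ, smul_comm E a, smul_comm E δ]
  have hYs' : ∀ x, Y x → a • ρ s⁻¹ x = x := by
    intro x hx
    have := hYs _ (hYρ s⁻¹ x hx)
    rw [rho_apply_inv] at this
    exact this.symm
  -- every element of `G` acts on `Y₁` by a scalar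
  have hscal : ∀ g : G, ∃ r : R, ∀ x, Y x → ρ g x = r • x := by
    intro g
    obtain ⟨b, Q, Q', hQ, hQ'⟩ := hrep g
    obtain ⟨u, v, huv⟩ := exists_bezout hp ha
    refine ⟨(u : R) * (Q' - Q), fun x hx => ?_⟩
    have e1 := hQ x
    have e2 := hQ' x
    rw [rho_mul_apply, mul_inv_rev, rho_mul_apply, hYs _ (hYρ g x hx), mul_smul, ← map_nsmul,
      smul_comm, ← map_nsmul (ρ g⁻¹), hYs' x hx] at e2
    rw [map_nsmul] at e2
    have e3 : (Q' - Q) • x = ((a : ℤ) - 1) • ρ g x := by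
      rw [sub_smul, ← e1, ← e2, sub_smul, natCast_zsmul, one_smul]
      abel
    have e4 : (p : ℤ) • ρ g x = 0 := by
      rw [natCast_zsmul, ← map_nsmul, hx.2.1, map_zero]
    calc ρ g x = (1 : ℤ) • ρ g x := (one_smul _ _).symm
      _ = (u * ((a : ℤ) - 1) + v * p) • ρ g x := by rw [huv]
      _ = u • (Q' - Q) • x := by
          rw [add_smul, mul_smul, mul_smul, e4, smul_zero, add_zero, e3]
      _ = ((u : R) * (Q' - Q)) • x := by rw [mul_smul, Int.cast_smul_eq_zsmul]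
  obtain ⟨r1, hr1⟩ := hscal h1
  obtain ⟨r2, hr2⟩ := hscal h2
  obtain ⟨r3, hr3⟩ := hscal h3
  have hA : ∀ x, Y x → ρ (h1 * h2 * h3) x = ρ (h2 * h1 * h3) x := by
    intro x hx
    rw [rho_mul_apply, rho_mul_apply, rho_mul_apply, rho_mul_apply, hr3 x hx,
      hr2 _ (hYR _ _ hx), hr1 _ (hYR _ _ (hYR _ _ hx)), hr1 _ (hYR _ _ hx),
      hr2 _ (hYR _ _ (hYR _ _ hx)), smul_comm r1 r2]
  have hB : ∀ x, Y x → ρ (h1 * h2 * h3)⁻¹ x = ρ (h2 * h1 * h3)⁻¹ x := by
    intro x hx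
    have e := hA _ (hYρ (h1 * h2 * h3)⁻¹ x hx)
    rw [rho_apply_inv] at e
    conv_rhs => rw [e]
    rw [rho_inv_apply]
  have hx0 : Y ((p ^ j) • δ ^ (n + 1) • E • w) := by
    refine ⟨⟨(p ^ j) • δ ^ n • w, ?_⟩, hj2, ?_⟩
    · rw [pow_succ', mul_smul, smul_comm _ δ, smul_comm E ((p ^ j : ℕ)), smul_comm E (δ ^ n)]
    · rw [smul_comm, hn2, smul_zero]
  apply hj1
  have e1 := r123 ((p ^ j) • δ ^ (n + 1) • E • w)
  have e2 := r213 ((p ^ j) • δ ^ (n + 1) • E • w)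
  rw [hA _ hx0, hB _ hx0, e2] at e1
  have e3 : (p ^ j) • δ ^ (n + 1) • E • w = E • ((p ^ j) • δ ^ (n + 1) • w) := by
    rw [smul_comm E, smul_comm E]
  rw [e3]
  apply hinj
  rw [← e3, sub_smul, e1, sub_self]

/-- **Step 2'.**  `s` acts as `a` on `K ∩ E • W`. -/
theorem OrdSetup'.step2 (h : OrdSetup' ρ p k E K s)
    {Qs : R} (hQs : Rep ρ s a Qs) (hδ : ∀ w : W, (Qs - 1 - (a : R)) • E • w = 0) :
    ActsOn ρ E K s a := by
  rintro x hxK ⟨w, rfl⟩
  rw [← sub_eq_zero]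
  by_contra hne
  obtain ⟨j, hj1, hj2⟩ := exists_ptorsion hne (h.pk _)
  have hK : ρ s (E • w) - a • E • w ∈ K := K.sub_mem (h.stable _ hxK) (K.nsmul_mem hxK a)
  apply hj1
  refine h.fix _ (K.nsmul_mem hK _) hj2
    ⟨(p ^ j) • (ρ s w - a • w), by
      rw [smul_comm E, map_smul, smul_sub E, smul_comm E a]⟩ ?_
  rw [map_nsmul, hQs.fixed (hδ w)]

end Fermat.Agent.S33
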