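import Fermat.Agent.S33.TopDefs

/-!
# S33, top layer, second version (helper45): the weak geometric input

`OrdinaryAt' U θ'` is `OrdinaryAt U θ'` with the last clause (inertia acts through the cyclotomic
character on the `p`-torsion of `K ∩ E • W_k`) replaced by a FIXED-VECTOR statement: an element of
inertia which acts non trivially on `μ_p` has no nonzero fixed vector in the `p`-torsion of
`K ∩ E • W_k`.
-/

set_option autoImplicit false

namespace Fermat.Agent.S33

open Fermat.Agent.S30 Fermat.Agent.GAL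

/-- The geometric input at `p`, fixed-vector form.  `θ'` is the residual eigensystem on the abstract
Hecke algebra.  For every layer there are a Hecke polynomial `E` with `θ' E ≠ 0` and a subgroup `K`
(the classes which are trivial at the valuations `v_∞` and `v_0`) such that
* `E • W_k` is `θ'`-primary;
* `K` is stable under the decomposition group;
* inertia acts trivially on `E • W_k` modulo `K`;
* an element `s` of inertia acting non trivially on `μ_p` has no nonzero fixed vector in the
  `p`-torsion of `K ∩ E • W_k`. -/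
def OrdinaryAt' {N p : ℕ} [NeZero N] {S : Finset ℕ} (U : UTower N p S) {κ : Type*} [Field κ]
    (θ' : HA →+* κ) : Prop :=
  ∀ P : ValuationSubring (AlgebraicClosure ℚ), P.LiesOverPrime p → ∀ k : ℕ,
    ∃ (E : HA) (K : AddSubgroup (U.W k)), θ' E ≠ 0 ∧
      (∀ Q : HA, θ' Q = 0 → ∀ w : U.W k, ∃ n : ℕ, Q ^ n • E • w = 0) ∧
      (∀ g ∈ P.decompositionSubgroup ℚ, ∀ x ∈ K, U.ρ k g x ∈ K) ∧
      (∀ σ ∈ P.inertiaSubgroupIn ℚ, ∀ w : U.W k, U.ρ k σ (E • w) - E • w ∈ K) ∧
      (∀ s ∈ P.inertiaSubgroupIn ℚ, ∀ a : ℕ, IsCyc p 1 s a → ¬ a ≡ 1 [MOD p] → ∀ x ∈ K,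
        p • x = 0 → (∃ w, x = E • w) → U.ρ k s x = x → x = 0)

end Fermat.Agent.S33
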