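import Fermat.Agent.S33.Top
import Fermat.Agent.S33.Top2Alg
import Fermat.Agent.S33.Top2Defs

/-!
# S33 top, second version (helper45)

* `ordinaryAt_of_ordinaryAt'` : under the residual ordinarity `hres`, the fixed-vector contract
  `OrdinaryAt'` implies the contract `OrdinaryAt` of the first version;
* `result_of_utower'` : S33 from a universal tower `U : UTower N p S`, `InertiaCyclo p`, `hres` and
  `OrdinaryAt' U (θ.comp (evHA N S))`.
-/

set_option autoImplicit false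
set_option linter.unusedSectionVars false

namespace Fermat.Agent.S33

open Polynomial IsLocalRing CuspForm Fermat.Agent.S30 Fermat.Agent.S31 Fermat.Agent.GAL

/-- An endomorphism of a free module of rank two which is the identity modulo the line spanned by
the first basis vector has trace `1 + det`. -/
theorem trace_eq_one_add_det_of_basis {k V : Type*} [CommRing k] [AddCommGroup V] [Module k V]
    (b : Module.Basis (Fin 2) k V) (f : Module.End k V)
    (hf : ∀ v : V, f v - v ∈ Submodule.span k {b 0}) :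
    LinearMap.trace k V f = 1 + LinearMap.det f := by
  obtain ⟨c0, hc0⟩ := Submodule.mem_span_singleton.1 (hf (b 0))
  obtain ⟨c1, hc1⟩ := Submodule.mem_span_singleton.1 (hf (b 1))
  have e0 : f (b 0) = (1 + c0) • b 0 := by
    rw [add_smul, one_smul, hc0]; abel
  have e1 : f (b 1) = b 1 + c1 • b 0 := by
    rw [hc1]; abel
  rw [LinearMap.trace_eq_matrix_trace k b, ← LinearMap.det_toMatrix b, Matrix.trace_fin_two,
    Matrix.det_fin_two]
  simp only [LinearMap.toMatrix_apply, e0, e1, map_add, map_smul, Module.Basis.repr_self,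
    Finsupp.smul_apply, Finsupp.add_apply, Finsupp.single_apply, smul_eq_mul]
  simp
  ring

variable {p : ℕ}

/-- Residual ordinarity: `tr ρ(σ) ≡ 1 + det ρ(σ)` for `σ` in the inertia group. -/
theorem trace_sub_one_sub_det_mem {T : Type} [CommRing T] [IsLocalRing T] (ρ : GaloisRepAdic T)
    (hres : (GaloisRepAdic.ofResidualGaloisRep ρ.residual).IsOrdinaryAt p)
    {P : ValuationSubring (AlgebraicClosure ℚ)} (hP : P.LiesOverPrime p) {σ : GQ}
    (hσ : σ ∈ P.inertiaSubgroupIn ℚ) :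
    LinearMap.trace T ρ.V (ρ.ρ σ) - 1 - LinearMap.det (ρ.ρ σ) ∈ maximalIdeal T := by
  obtain ⟨L, ⟨b, rfl⟩, -, h2⟩ := hres P hP
  have h := trace_eq_one_add_det_of_basis b _ (h2 σ hσ)
  change LinearMap.trace (ResidueField T) _ ((ρ.ρ σ).baseChange (ResidueField T)) =
    1 + LinearMap.det ((ρ.ρ σ).baseChange (ResidueField T)) at h
  rw [LinearMap.trace_baseChange, LinearMap.det_baseChange, ResidueField.algebraMap_eq] at h
  rw [← residue_eq_zero_iff, map_sub, map_sub, map_one, h]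
  ring

variable {N : ℕ} [NeZero N] {S : Finset ℕ}

/-- The data delivered by `OrdinaryAt'` at one layer. -/
structure Layer' (U : UTower N p S) {κ : Type*} [Field κ] (θ' : HA →+* κ)
    (P : ValuationSubring (AlgebraicClosure ℚ)) (k : ℕ) (E : HA) (K : AddSubgroup (U.W k)) :
    Prop where
  ne : θ' E ≠ 0
  prim : ∀ Q : HA, θ' Q = 0 → ∀ w : U.W k, ∃ n : ℕ, Q ^ n • E • w = 0
  stab : ∀ g ∈ P.decompositionSubgroup ℚ, ∀ x ∈ K, U.ρ k g x ∈ K
  sub : ∀ σ ∈ P.inertiaSubgroupIn ℚ, ∀ w : U.W k, U.ρ k σ (E • w) - E • w ∈ K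
  fix : ∀ s ∈ P.inertiaSubgroupIn ℚ, ∀ a : ℕ, IsCyc p 1 s a → ¬ a ≡ 1 [MOD p] → ∀ x ∈ K,
    p • x = 0 → (∃ w, x = E • w) → U.ρ k s x = x → x = 0

variable {𝒪 : Type} [CommRing 𝒪] [IsDomain 𝒪] [IsDiscreteValuationRing 𝒪]
  [IsAdicComplete (IsLocalRing.maximalIdeal 𝒪) 𝒪]
  {θ : CuspForm.heckeAlgebra N 2 (↑S : Set ℕ) →+* IsLocalRing.ResidueField 𝒪}
  {T : Type} [CommRing T] [IsLocalRing T] [IsNoetherianRing T]
  [IsAdicComplete (IsLocalRing.maximalIdeal T) T] [Algebra 𝒪 T] [IsLocalHom (algebraMap 𝒪 T)]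
  [Module.Finite 𝒪 T] [Module.Free 𝒪 T]

/-- (L) the level lemma, second version: an element `s` of inertia with `ε(s) ≢ 1` acts as `ε(s)`
on `K ∩ E • W`. -/
theorem Layer'.acts_of_ne [Finite (IsLocalRing.ResidueField 𝒪)] [Fact p.Prime]
    (hp𝒪 : (p : 𝒪) ∈ IsLocalRing.maximalIdeal 𝒪) (hpS : p ∈ S)
    (hNS : ∀ q : ℕ, q.Prime → q ∣ N → q ∈ S)
    (H : CuspForm.HeckeGaloisRepDatum N (↑S : Set ℕ) 𝒪 θ T)
    (hres : (GaloisRepAdic.ofResidualGaloisRep H.ρ.residual).IsOrdinaryAt p) {U : UTower N p S}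
    {P : ValuationSubring (AlgebraicClosure ℚ)} (hP : P.LiesOverPrime p) {k : ℕ} {E : HA}
    {K : AddSubgroup (U.W k)}
    (hL : Layer' U (θ.comp (evHA N S)) P k E K) (hk : 1 ≤ k) {s : GQ}
    (hs : s ∈ P.inertiaSubgroupIn ℚ) {a : ℕ} (ha : IsCyc p k s a) (hne : ¬ a ≡ 1 [MOD p]) :
    ActsOn (U.ρ k) E K s a := by
  have hp : p.Prime := Fact.out
  have hset : OrdSetup' (U.ρ k) p k E K s :=
    { pk := U.pow_smul k
      stable := hL.stab s (inertia_le_decomposition hs)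
      sub := hL.sub s hs
      fix := fun x hx hpx hw => hL.fix s hs a (ha.mono hk) hne x hx hpx hw }
  have hrep : ∀ g : GQ, ∃ (b : ℕ) (Q Q' : HA), Rep (U.ρ k) g b Q ∧
      Rep (U.ρ k) (s * g) (a * b) Q' := by
    intro g
    obtain ⟨b, hb⟩ := exists_isCyc p k g
    obtain ⟨Q, hQ, -⟩ := exists_rep hpS hNS H U 0 k g b hb
    obtain ⟨Q', hQ', -⟩ := exists_rep hpS hNS H U 0 k (s * g) (a * b) (ha.mul hb)
    exact ⟨b, Q, Q', hQ, hQ'⟩
  obtain ⟨h1, h2, h3, hnc⟩ := exists_noncomm H.ρ H.residual_absIrr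
  obtain ⟨b1, hb1⟩ := exists_isCyc p k h1
  obtain ⟨b2, hb2⟩ := exists_isCyc p k h2
  obtain ⟨b3, hb3⟩ := exists_isCyc p k h3
  have c123 : IsCyc p k (h1 * h2 * h3) (b1 * b2 * b3) := (hb1.mul hb2).mul hb3
  have c213 : IsCyc p k (h2 * h1 * h3) (b1 * b2 * b3) := by
    have := (hb2.mul hb1).mul hb3
    rwa [mul_comm b2 b1] at this
  obtain ⟨Q123, r123, t123⟩ := exists_rep hpS hNS H U 1 k _ _ c123
  obtain ⟨Q213, r213, t213⟩ := exists_rep hpS hNS H U 1 k _ _ c213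
  rw [pow_one] at t123 t213
  have hD : (θ.comp (evHA N S)) (Q123 - Q213) ≠ 0 := by
    rw [RingHom.comp_apply]
    apply θ_ne_zero_of_notMem H
    intro hmem
    apply hnc
    have e : LinearMap.trace T H.ρ.V (H.ρ.ρ (h1 * h2 * h3)) -
        LinearMap.trace T H.ρ.V (H.ρ.ρ (h2 * h1 * h3)) =
        (LinearMap.trace T H.ρ.V (H.ρ.ρ (h1 * h2 * h3)) - H.π (evHA N S Q123)) -
        (LinearMap.trace T H.ρ.V (H.ρ.ρ (h2 * h1 * h3)) - H.π (evHA N S Q213)) +
        H.π (evHA N S (Q123 - Q213)) := by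
      rw [map_sub, map_sub]
      ring
    rw [e]
    exact Ideal.add_mem _ (Ideal.sub_mem _ t123 t213) hmem
  have hinj : ∀ w : U.W k, (Q123 - Q213) • E • w = 0 → E • w = 0 := fun w hw =>
    inj_of_theta_ne_zero (θ.comp (evHA N S)) hD (E • w) (fun Q hQ => hL.prim Q hQ w) hw
  obtain ⟨Qs, hQs, htQ⟩ := exists_rep hpS hNS H U 1 k s a ha
  rw [pow_one] at htQ
  -- the residual ordinarity: `θ (Q_s - 1 - a) = 0`
  have hθ : (θ.comp (evHA N S)) (Qs - 1 - (a : HA)) = 0 := by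
    rw [RingHom.comp_apply]
    by_contra hcon
    have hu := isUnit_π H hcon
    rw [← IsLocalRing.notMem_maximalIdeal] at hu
    apply hu
    have h2 := det_sub_natCast_mem hp𝒪 hpS hNS H 1 s a (ha.mono hk)
    rw [pow_one] at h2
    have h3 := trace_sub_one_sub_det_mem H.ρ hres hP hs
    have e : H.π (evHA N S (Qs - 1 - (a : HA))) =
        (LinearMap.trace T H.ρ.V (H.ρ.ρ s) - 1 - LinearMap.det (H.ρ.ρ s)) -
        (LinearMap.trace T H.ρ.V (H.ρ.ρ s) - H.π (evHA N S Qs)) +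
        (LinearMap.det (H.ρ.ρ s) - (a : T)) := by
      rw [map_sub, map_sub, map_sub, map_sub, map_one, map_one, map_natCast, map_natCast]
      ring
    rw [e]
    exact Ideal.add_mem _ (Ideal.sub_mem _ h3 htQ) h2
  have hkill : ∀ w : U.W k, (Qs - 1 - (a : HA)) • E • w = 0 := fun w =>
    hset.step1 hp hne hQs (fun w => hL.prim _ hθ w) hrep h1 h2 h3 (b1 * b2 * b3) Q123 Q213
      r123 r213 hinj w
  exact hset.step2 hQs hkill

/-- (L') every element of inertia acts through the cyclotomic character on `K ∩ E • W`. -/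
theorem Layer'.acts [Finite (IsLocalRing.ResidueField 𝒪)] [Fact p.Prime]
    (hp𝒪 : (p : 𝒪) ∈ IsLocalRing.maximalIdeal 𝒪) (hpS : p ∈ S)
    (hNS : ∀ q : ℕ, q.Prime → q ∣ N → q ∈ S)
    (H : CuspForm.HeckeGaloisRepDatum N (↑S : Set ℕ) 𝒪 θ T)
    (hres : (GaloisRepAdic.ofResidualGaloisRep H.ρ.residual).IsOrdinaryAt p) {U : UTower N p S}
    {P : ValuationSubring (AlgebraicClosure ℚ)} (hP : P.LiesOverPrime p) {k : ℕ} {E : HA}
    {K : AddSubgroup (U.W k)}
    (hL : Layer' U (θ.comp (evHA N S)) P k E K) (hk : 1 ≤ k) {s : GQ}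
    (hs : s ∈ P.inertiaSubgroupIn ℚ) {a : ℕ} (ha : IsCyc p k s a) (hne : ¬ a ≡ 1 [MOD p])
    {σ : GQ} (hσ : σ ∈ P.inertiaSubgroupIn ℚ) {b : ℕ} (hb : IsCyc p k σ b) :
    ActsOn (U.ρ k) E K σ b := by
  by_cases hb1 : b ≡ 1 [MOD p]
  · obtain ⟨e, he⟩ := exists_isCyc p k (s⁻¹ * σ)
    have hmem : s⁻¹ * σ ∈ P.inertiaSubgroupIn ℚ := mul_mem (inv_mem hs) hσ
    have hae : a * e ≡ b [MOD p ^ k] := by
      have h1 := ha.mul he
      rw [mul_inv_cancel_left] at h1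
      exact h1.modEq hb
    have hae' : a * e ≡ b [MOD p] := hae.of_dvd (dvd_pow_self p (by omega))
    have hene : ¬ e ≡ 1 [MOD p] := by
      intro he1
      apply hne
      have h2 : a * e ≡ a * 1 [MOD p] := Nat.ModEq.mul_left a he1
      rw [mul_one] at h2
      exact (h2.symm.trans hae').trans hb1
    have A1 := hL.acts_of_ne hp𝒪 hpS hNS H hres hP hk hs ha hne
    have A2 := hL.acts_of_ne hp𝒪 hpS hNS H hres hP hk hmem he hene
    rintro x hxK hxE
    have e1 : U.ρ k σ x = U.ρ k s (U.ρ k (s⁻¹ * σ) x) := by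
      rw [← rho_mul_apply, mul_inv_cancel_left]
    rw [e1, A2 x hxK hxE, map_nsmul, A1 x hxK hxE, ← mul_smul, mul_comm e a]
    exact nsmul_eq_of_modEq hae x (U.pow_smul k x)
  · exact hL.acts_of_ne hp𝒪 hpS hNS H hres hP hk hσ hb hb1

/-- **The fixed-vector contract implies the scalar contract**, under the residual ordinarity. -/
theorem ordinaryAt_of_ordinaryAt' [Finite (IsLocalRing.ResidueField 𝒪)] (hp : p.Prime)
    (hp𝒪 : (p : 𝒪) ∈ IsLocalRing.maximalIdeal 𝒪) (hpS : p ∈ S)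
    (hNS : ∀ q : ℕ, q.Prime → q ∣ N → q ∈ S)
    (H : CuspForm.HeckeGaloisRepDatum N (↑S : Set ℕ) 𝒪 θ T)
    (hres : (GaloisRepAdic.ofResidualGaloisRep H.ρ.residual).IsOrdinaryAt p)
    (U : UTower N p S) (hI : InertiaCyclo p) (hord : OrdinaryAt' U (θ.comp (evHA N S))) :
    OrdinaryAt U (θ.comp (evHA N S)) := by
  have : Fact p.Prime := ⟨hp⟩
  intro P hP k
  obtain ⟨E, K, h1, h2, h3, h4, h5⟩ := hord P hP k
  refine ⟨E, K, h1, h2, h3, h4, ?_⟩
  intro σ hσ a ha x hxK hpx hxE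
  rcases Nat.eq_zero_or_pos k with rfl | hk
  · have hx0 : x = 0 := by simpa using U.pow_smul 0 x
    rw [hx0, map_zero, smul_zero]
  have hL : Layer' U (θ.comp (evHA N S)) P k E K := ⟨h1, h2, h3, h4, h5⟩
  obtain ⟨s, hsI, a1, ha1, ha1ne⟩ := hI P hP
  obtain ⟨as, has⟩ := exists_isCyc p k s
  have hasne : ¬ as ≡ 1 [MOD p] := by
    intro h
    apply ha1ne
    have h6 := ha1.modEq (has.mono hk)
    rw [pow_one] at h6
    exact h6.trans h
  obtain ⟨b, hb⟩ := exists_isCyc p k σ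
  rw [hL.acts hp𝒪 hpS hNS H hres hP hk hsI has hasne hσ hb x hxK hxE]
  have h7 := (hb.mono hk).modEq ha
  rw [pow_one] at h7
  exact nsmul_eq_of_modEq h7 x hpx

/-- **S33 from the universal tower, second version.** -/
theorem result_of_utower' [Finite (IsLocalRing.ResidueField 𝒪)] (hp : p.Prime)
    (hp𝒪 : (p : 𝒪) ∈ IsLocalRing.maximalIdeal 𝒪) (hpS : p ∈ S)
    (hNS : ∀ q : ℕ, q.Prime → q ∣ N → q ∈ S)
    (H : CuspForm.HeckeGaloisRepDatum N (↑S : Set ℕ) 𝒪 θ T)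
    (hres : (GaloisRepAdic.ofResidualGaloisRep H.ρ.residual).IsOrdinaryAt p)
    (U : UTower N p S) (hI : InertiaCyclo p) (hord : OrdinaryAt' U (θ.comp (evHA N S))) :
    H.ρ.IsOrdinaryAt p :=
  result_of_utower hp hp𝒪 hpS hNS H U hI
    (ordinaryAt_of_ordinaryAt' hp hp𝒪 hpS hNS H hres U hI hord)

end Fermat.Agent.S33
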