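import Fermat.Agent.S33.TopDefs

/-!
# S33 top: the final assembly (task S33-TOP, helper224)

`result_of_utower` : S33 from a universal tower `U : UTower N p S`, `InertiaCyclo p` and the
geometric input `OrdinaryAt U (θ.comp (evHA N S))`.
-/

set_option autoImplicit false
set_option linter.unusedSectionVars false

namespace Fermat.Agent.S33

open Polynomial IsLocalRing CuspForm Fermat.Agent.S30 Fermat.Agent.S31 Fermat.Agent.GAL

/-- T1.  An element with nonzero image in the finite field `κ` acts injectively on a primary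
module: `θ' (D ^ (q - 1) - 1) = 0`, and `(D ^ (q - 1) - 1) ^ n • m = ± m` if `D • m = 0`. -/
theorem inj_of_theta_ne_zero {R κ W : Type*} [CommRing R] [Field κ] [Finite κ] [AddCommGroup W]
    [Module R W] (θ' : R →+* κ) {D : R} (hD : θ' D ≠ 0) (m : W)
    (hprim : ∀ Q : R, θ' Q = 0 → ∃ n : ℕ, Q ^ n • m = 0) (hm : D • m = 0) : m = 0 := by
  classical
  have : Fintype κ := Fintype.ofFinite κ
  have hcard : 1 < Fintype.card κ := Fintype.one_lt_card
  obtain ⟨e, he⟩ : ∃ e, Fintype.card κ - 1 = e + 1 := ⟨Fintype.card κ - 2, by omega⟩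
  have h0 : θ' (D ^ (e + 1) - 1) = 0 := by
    rw [map_sub, map_pow, map_one, ← he, FiniteField.pow_card_sub_one_eq_one _ hD, sub_self]
  obtain ⟨n, hn⟩ := hprim _ h0
  have h1 : (D ^ (e + 1) - 1) • m = -m := by
    rw [sub_smul, one_smul, pow_succ, mul_smul, hm, smul_zero, zero_sub]
  have h2 : ∀ n : ℕ, (D ^ (e + 1) - 1) ^ n • m = 0 → m = 0 := by
    intro n
    induction n with
    | zero => intro h; simpa using h
    | succ n ih =>
      intro h
      apply ih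
      rw [pow_succ, mul_smul, h1, smul_neg, neg_eq_zero] at h
      exact h
  exact h2 n hn

theorem inertia_le_decomposition {P : ValuationSubring (AlgebraicClosure ℚ)} {σ : GQ}
    (hσ : σ ∈ P.inertiaSubgroupIn ℚ) : σ ∈ P.decompositionSubgroup ℚ := by
  obtain ⟨x, -, rfl⟩ := hσ
  exact x.2

variable {p : ℕ} {N : ℕ} [NeZero N] {S : Finset ℕ}

/-- The data delivered by `OrdinaryAt` at one layer. -/
structure Layer (U : UTower N p S) {κ : Type*} [Field κ] (θ' : HA →+* κ)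
    (P : ValuationSubring (AlgebraicClosure ℚ)) (k : ℕ) (E : HA) (K : AddSubgroup (U.W k)) :
    Prop where
  ne : θ' E ≠ 0
  prim : ∀ Q : HA, θ' Q = 0 → ∀ w : U.W k, ∃ n : ℕ, Q ^ n • E • w = 0
  stab : ∀ g ∈ P.decompositionSubgroup ℚ, ∀ x ∈ K, U.ρ k g x ∈ K
  sub : ∀ σ ∈ P.inertiaSubgroupIn ℚ, ∀ w : U.W k, U.ρ k σ (E • w) - E • w ∈ K
  tors : ∀ σ ∈ P.inertiaSubgroupIn ℚ, ∀ a : ℕ, IsCyc p 1 σ a → ∀ x ∈ K, p • x = 0 →
    (∃ w, x = E • w) → U.ρ k σ x = a • x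

theorem OrdinaryAt.exists_layer {U : UTower N p S} {κ : Type*} [Field κ] {θ' : HA →+* κ}
    (h : OrdinaryAt U θ') {P : ValuationSubring (AlgebraicClosure ℚ)} (hP : P.LiesOverPrime p)
    (k : ℕ) : ∃ (E : HA) (K : AddSubgroup (U.W k)), Layer U θ' P k E K := by
  obtain ⟨E, K, h1, h2, h3, h4, h5⟩ := h P hP k
  exact ⟨E, K, ⟨h1, h2, h3, h4, h5⟩⟩

variable {𝒪 : Type} [CommRing 𝒪] [IsDomain 𝒪] [IsDiscreteValuationRing 𝒪]
  [IsAdicComplete (IsLocalRing.maximalIdeal 𝒪) 𝒪]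
  {θ : CuspForm.heckeAlgebra N 2 (↑S : Set ℕ) →+* IsLocalRing.ResidueField 𝒪}
  {T : Type} [CommRing T] [IsLocalRing T] [IsNoetherianRing T]
  [IsAdicComplete (IsLocalRing.maximalIdeal T) T] [Algebra 𝒪 T] [IsLocalHom (algebraMap 𝒪 T)]
  [Module.Finite 𝒪 T] [Module.Free 𝒪 T]

/-- (L) the level lemma. -/
theorem Layer.kill_and_acts [Finite (IsLocalRing.ResidueField 𝒪)] [Fact p.Prime] (hpS : p ∈ S)
    (hNS : ∀ q : ℕ, q.Prime → q ∣ N → q ∈ S)
    (H : CuspForm.HeckeGaloisRepDatum N (↑S : Set ℕ) 𝒪 θ T) {U : UTower N p S}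
    {P : ValuationSubring (AlgebraicClosure ℚ)} {k : ℕ} {E : HA} {K : AddSubgroup (U.W k)}
    (hL : Layer U (θ.comp (evHA N S)) P k E K) (hk : 1 ≤ k) {s : GQ}
    (hs : s ∈ P.inertiaSubgroupIn ℚ) {a : ℕ} (ha : IsCyc p k s a) (hne : ¬ a ≡ 1 [MOD p]) :
    (∀ Qs : HA, Rep (U.ρ k) s a Qs → ∀ w : U.W k, (Qs - 1 - (a : HA)) • E • w = 0) ∧
      ActsOn (U.ρ k) E K s a := by
  have hp : p.Prime := Fact.out
  have hset : OrdSetup (U.ρ k) p k E K s a :=
    { pk := U.pow_smul k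
      stable := hL.stab s (inertia_le_decomposition hs)
      sub := hL.sub s hs
      tors := fun x hx hpx hw => hL.tors s hs a (ha.mono hk) x hx hpx hw }
  have hrep : ∀ g : GQ, ∃ (b : ℕ) (Q Q' : HA), Rep (U.ρ k) g b Q ∧
      Rep (U.ρ k) (s * g) (a * b) Q' := by
    intro g
    obtain ⟨b, hb⟩ := exists_isCyc p k g
    obtain ⟨Q, hQ, -⟩ := exists_rep hpS hNS H U 0 k g b hb
    obtain ⟨Q', hQ', -⟩ := exists_rep hpS hNS H U 0 k (s * g) (a * b) (ha.mul hb)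
    exact ⟨b, Q, Q', hQ, hQ'⟩
  obtain ⟨h1, h2, h3, hnc⟩ := exists_noncomm H.ρ H.residual_absIrr
  obtain ⟨b1, hb1⟩ := exists_isCyc p k h1
  obtain ⟨b2, hb2⟩ := exists_isCyc p k h2
  obtain ⟨b3, hb3⟩ := exists_isCyc p k h3
  have c123 : IsCyc p k (h1 * h2 * h3) (b1 * b2 * b3) := (hb1.mul hb2).mul hb3
  have c213 : IsCyc p k (h2 * h1 * h3) (b1 * b2 * b3) := by
    have := (hb2.mul hb1).mul hb3
    rwa [mul_comm b2 b1] at this
  obtain ⟨Q123, r123, t123⟩ := exists_rep hpS hNS H U 1 k _ _ c123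
  obtain ⟨Q213, r213, t213⟩ := exists_rep hpS hNS H U 1 k _ _ c213
  rw [pow_one] at t123 t213
  have hD : (θ.comp (evHA N S)) (Q123 - Q213) ≠ 0 := by
    rw [RingHom.comp_apply]
    apply θ_ne_zero_of_notMem H
    intro hmem
    apply hnc
    have e : LinearMap.trace T H.ρ.V (H.ρ.ρ (h1 * h2 * h3)) -
        LinearMap.trace T H.ρ.V (H.ρ.ρ (h2 * h1 * h3)) =
        (LinearMap.trace T H.ρ.V (H.ρ.ρ (h1 * h2 * h3)) - H.π (evHA N S Q123)) -
        (LinearMap.trace T H.ρ.V (H.ρ.ρ (h2 * h1 * h3)) - H.π (evHA N S Q213)) +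
        H.π (evHA N S (Q123 - Q213)) := by
      rw [map_sub, map_sub]
      ring
    rw [e]
    exact Ideal.add_mem _ (Ideal.sub_mem _ t123 t213) hmem
  have hinj : ∀ w : U.W k, (Q123 - Q213) • E • w = 0 → E • w = 0 := fun w hw =>
    inj_of_theta_ne_zero (θ.comp (evHA N S)) hD (E • w) (fun Q hQ => hL.prim Q hQ w) hw
  have hkill : ∀ Qs : HA, Rep (U.ρ k) s a Qs → ∀ w : U.W k,
      (Qs - 1 - (a : HA)) • E • w = 0 := fun Qs hQs w =>
    hset.step1 hp hne hQs hrep h1 h2 h3 (b1 * b2 * b3) Q123 Q213 r123 r213 hinj w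
  refine ⟨hkill, ?_⟩
  obtain ⟨Qs, hQs, -⟩ := exists_rep hpS hNS H U 0 k s a ha
  exact hset.step2 hp hne hQs (hkill Qs hQs)

/-- (L') every element of inertia acts through the cyclotomic character on `K ∩ E • W`. -/
theorem Layer.acts [Finite (IsLocalRing.ResidueField 𝒪)] [Fact p.Prime] (hpS : p ∈ S)
    (hNS : ∀ q : ℕ, q.Prime → q ∣ N → q ∈ S)
    (H : CuspForm.HeckeGaloisRepDatum N (↑S : Set ℕ) 𝒪 θ T) {U : UTower N p S}
    {P : ValuationSubring (AlgebraicClosure ℚ)} {k : ℕ} {E : HA} {K : AddSubgroup (U.W k)}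
    (hL : Layer U (θ.comp (evHA N S)) P k E K) (hk : 1 ≤ k) {s : GQ}
    (hs : s ∈ P.inertiaSubgroupIn ℚ) {a : ℕ} (ha : IsCyc p k s a) (hne : ¬ a ≡ 1 [MOD p])
    {σ : GQ} (hσ : σ ∈ P.inertiaSubgroupIn ℚ) {b : ℕ} (hb : IsCyc p k σ b) :
    ActsOn (U.ρ k) E K σ b := by
  by_cases hb1 : b ≡ 1 [MOD p]
  · obtain ⟨e, he⟩ := exists_isCyc p k (s⁻¹ * σ)
    have hmem : s⁻¹ * σ ∈ P.inertiaSubgroupIn ℚ := mul_mem (inv_mem hs) hσ
    have hae : a * e ≡ b [MOD p ^ k] := by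
      have h1 := ha.mul he
      rw [mul_inv_cancel_left] at h1
      exact h1.modEq hb
    have hae' : a * e ≡ b [MOD p] := hae.of_dvd (dvd_pow_self p (by omega))
    have hene : ¬ e ≡ 1 [MOD p] := by
      intro he1
      apply hne
      have h2 : a * e ≡ a * 1 [MOD p] := Nat.ModEq.mul_left a he1
      rw [mul_one] at h2
      exact (h2.symm.trans hae').trans hb1
    have A1 := (hL.kill_and_acts hpS hNS H hk hs ha hne).2
    have A2 := (hL.kill_and_acts hpS hNS H hk hmem he hene).2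
    rintro x hxK hxE
    have e1 : U.ρ k σ x = U.ρ k s (U.ρ k (s⁻¹ * σ) x) := by
      rw [← rho_mul_apply, mul_inv_cancel_left]
    rw [e1, A2 x hxK hxE, map_nsmul, A1 x hxK hxE, ← mul_smul, mul_comm e a]
    exact nsmul_eq_of_modEq hae x (U.pow_smul k x)
  · exact (hL.kill_and_acts hpS hNS H hk hσ hb hb1).2

/-- it suffices to check the congruences modulo the powers `n + 1`. -/
theorem eq_zero_of_forall_mem_succ {x : T} (h : ∀ n : ℕ, x ∈ maximalIdeal T ^ (n + 1)) :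
    x = 0 := by
  have hH : IsHausdorff (maximalIdeal T) T := IsAdicComplete.toIsHausdorff
  apply hH.haus'
  intro n
  rw [SModEq.sub_mem, smul_eq_mul, Ideal.mul_top, sub_zero]
  exact Ideal.pow_le_pow_right (Nat.le_succ n) (h n)

/-- **S33 from the universal tower.** -/
theorem result_of_utower [Finite (IsLocalRing.ResidueField 𝒪)] (hp : p.Prime)
    (hp𝒪 : (p : 𝒪) ∈ IsLocalRing.maximalIdeal 𝒪) (hpS : p ∈ S)
    (hNS : ∀ q : ℕ, q.Prime → q ∣ N → q ∈ S)
    (H : CuspForm.HeckeGaloisRepDatum N (↑S : Set ℕ) 𝒪 θ T)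
    (U : UTower N p S) (hI : InertiaCyclo p) (hord : OrdinaryAt U (θ.comp (evHA N S))) :
    H.ρ.IsOrdinaryAt p := by
  have : Fact p.Prime := ⟨hp⟩
  intro P hP
  obtain ⟨s, hsI, a1, ha1, ha1ne⟩ := hI P hP
  obtain ⟨c, hc⟩ := exists_transfer hp𝒪 H U
  have hpT : (p : T) ∈ maximalIdeal T := natCast_mem_maximalIdeal hp𝒪
  set f : Module.End T H.ρ.V := H.ρ.ρ s with hf
  set d : T := LinearMap.det f with hd
  -- exponents of `s`
  have hexp : ∀ k : ℕ, 1 ≤ k → ∃ a : ℕ, IsCyc p k s a ∧ ¬ a ≡ 1 [MOD p] := by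
    intro k hk
    obtain ⟨a, ha⟩ := exists_isCyc p k s
    refine ⟨a, ha, fun h1 => ha1ne ?_⟩
    have h2 := ha1.modEq (ha.mono hk)
    rw [pow_one] at h2
    exact h2.trans h1
  -- (A)
  have htr : LinearMap.trace T H.ρ.V f = 1 + d := by
    rw [← sub_eq_zero]
    apply eq_zero_of_forall_mem_succ
    intro n
    have hk : 1 ≤ n + 1 + c := by omega
    obtain ⟨E, K, hL⟩ := hord.exists_layer hP (n + 1 + c)
    obtain ⟨a, ha, hane⟩ := hexp _ hk
    obtain ⟨Qs, hQs, htQ⟩ := exists_rep hpS hNS H U (n + 1) (n + 1 + c) s a ha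
    have hkill := (hL.kill_and_acts hpS hNS H hk hsI ha hane).1 Qs hQs
    have h1 := hc (n + 1) (Qs - 1 - (a : HA)) E hL.ne hkill
    have h2 := det_sub_natCast_mem hp𝒪 hpS hNS H (n + 1) s a (ha.mono (by omega))
    rw [map_sub, map_sub, map_sub, map_sub, map_one, map_one, map_natCast, map_natCast] at h1
    have e : LinearMap.trace T H.ρ.V f - (1 + d) =
        (LinearMap.trace T H.ρ.V (H.ρ.ρ s) - H.π (evHA N S Qs)) +
        (H.π (evHA N S Qs) - 1 - (a : T)) - (LinearMap.det (H.ρ.ρ s) - (a : T)) := by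
      rw [hd, hf]
      ring
    rw [e]
    exact Ideal.sub_mem _ (Ideal.add_mem _ htQ h1) h2
  -- (C)
  have hdu : IsUnit (d - 1) := by
    rw [← IsLocalRing.notMem_maximalIdeal]
    intro hmem
    have h2 := det_sub_natCast_mem hp𝒪 hpS hNS H 1 s a1 ha1
    rw [pow_one] at h2
    obtain ⟨u, v, huv⟩ := exists_bezout hp ha1ne
    have h3 : (a1 : T) - 1 ∈ maximalIdeal T := by
      have e : (a1 : T) - 1 = (d - 1) - (LinearMap.det (H.ρ.ρ s) - (a1 : T)) := by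
        rw [hd, hf]
        ring
      rw [e]
      exact Ideal.sub_mem _ hmem h2
    have h4 : (1 : T) ∈ maximalIdeal T := by
      have e := congrArg (Int.cast : ℤ → T) huv
      push_cast at e
      rw [← e]
      exact Ideal.add_mem _ (Ideal.mul_mem_left _ _ h3) (Ideal.mul_mem_left _ _ hpT)
    exact (Ideal.ne_top_iff_one _).1 (maximalIdeal.isMaximal T).ne_top h4
  -- (B)
  have hB : ∀ g ∈ P.decompositionSubgroup ℚ, ∀ σ ∈ P.inertiaSubgroupIn ℚ,
      (f - d • (1 : Module.End T H.ρ.V)) * H.ρ.ρ g * (H.ρ.ρ σ - 1) = 0 := by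
    intro g hg σ hσ
    apply eq_zero_of_trace_mul_eq_zero H.ρ H.residual_absIrr
    intro h
    have hexpand : LinearMap.trace T H.ρ.V
        ((f - d • (1 : Module.End T H.ρ.V)) * H.ρ.ρ g * (H.ρ.ρ σ - 1) * H.ρ.ρ h) =
        LinearMap.trace T H.ρ.V (H.ρ.ρ (h * s * g * σ)) -
        LinearMap.trace T H.ρ.V (H.ρ.ρ (h * s * g)) -
        d * LinearMap.trace T H.ρ.V (H.ρ.ρ (h * g * σ)) +
        d * LinearMap.trace T H.ρ.V (H.ρ.ρ (h * g)) := by
      rw [LinearMap.trace_mul_comm]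
      have e : H.ρ.ρ h * ((f - d • (1 : Module.End T H.ρ.V)) * H.ρ.ρ g * (H.ρ.ρ σ - 1)) =
          H.ρ.ρ (h * s * g * σ) - H.ρ.ρ (h * s * g) - d • H.ρ.ρ (h * g * σ) +
            d • H.ρ.ρ (h * g) := by
        simp only [map_mul, hf]
        simp only [mul_sub, sub_mul, mul_one, smul_mul_assoc, mul_smul_comm, one_mul, mul_assoc]
        abel
      rw [e, map_add, map_sub, map_sub, map_smul, map_smul, smul_eq_mul, smul_eq_mul]
    rw [hexpand]
    apply eq_zero_of_forall_mem_succ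
    intro n
    have hk : 1 ≤ n + 1 + c := by omega
    obtain ⟨E, K, hL⟩ := hord.exists_layer hP (n + 1 + c)
    obtain ⟨a, ha, hane⟩ := hexp _ hk
    obtain ⟨aσ, haσ⟩ := exists_isCyc p (n + 1 + c) σ
    obtain ⟨ag, hag⟩ := exists_isCyc p (n + 1 + c) g
    obtain ⟨ah, hah⟩ := exists_isCyc p (n + 1 + c) h
    obtain ⟨Q1, R1, t1⟩ := exists_rep hpS hNS H U (n + 1) (n + 1 + c) (h * s * g * σ)
      (ah * a * ag * aσ) (((hah.mul ha).mul hag).mul haσ)
    obtain ⟨Q2, R2, t2⟩ := exists_rep hpS hNS H U (n + 1) (n + 1 + c) (h * s * g)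
      (ah * a * ag) ((hah.mul ha).mul hag)
    obtain ⟨Q3, R3, t3⟩ := exists_rep hpS hNS H U (n + 1) (n + 1 + c) (h * g * σ)
      (ah * ag * aσ) ((hah.mul hag).mul haσ)
    obtain ⟨Q4, R4, t4⟩ := exists_rep hpS hNS H U (n + 1) (n + 1 + c) (h * g)
      (ah * ag) (hah.mul hag)
    have As := (hL.kill_and_acts hpS hNS H hk hsI ha hane).2
    have Aσ := hL.acts hpS hNS H hk hsI ha hane hσ haσ
    have hkill := step3 As Aσ (hL.sub σ hσ) (hL.sub s⁻¹ (inv_mem hsI)) (hL.stab g hg)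
      (hL.stab g⁻¹ (inv_mem hg)) (hL.stab σ⁻¹ (inv_mem (inertia_le_decomposition hσ)))
      R1 R2 R3 R4
    have h1 := hc (n + 1) (Q1 - Q2 - (a : HA) * Q3 + (a : HA) * Q4) E hL.ne hkill
    have h2 := det_sub_natCast_mem hp𝒪 hpS hNS H (n + 1) s a (ha.mono (by omega))
    simp only [map_add, map_sub, map_mul, map_natCast] at h1
    have e : LinearMap.trace T H.ρ.V (H.ρ.ρ (h * s * g * σ)) -
        LinearMap.trace T H.ρ.V (H.ρ.ρ (h * s * g)) -
        d * LinearMap.trace T H.ρ.V (H.ρ.ρ (h * g * σ)) +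
        d * LinearMap.trace T H.ρ.V (H.ρ.ρ (h * g)) =
        (H.π (evHA N S Q1) - H.π (evHA N S Q2) - (a : T) * H.π (evHA N S Q3) +
          (a : T) * H.π (evHA N S Q4)) +
        (LinearMap.trace T H.ρ.V (H.ρ.ρ (h * s * g * σ)) - H.π (evHA N S Q1)) -
        (LinearMap.trace T H.ρ.V (H.ρ.ρ (h * s * g)) - H.π (evHA N S Q2)) -
        d * (LinearMap.trace T H.ρ.V (H.ρ.ρ (h * g * σ)) - H.π (evHA N S Q3)) +
        d * (LinearMap.trace T H.ρ.V (H.ρ.ρ (h * g)) - H.π (evHA N S Q4)) -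
        (LinearMap.det (H.ρ.ρ s) - (a : T)) * H.π (evHA N S Q3) +
        (LinearMap.det (H.ρ.ρ s) - (a : T)) * H.π (evHA N S Q4) := by
      rw [hd, hf]
      ring
    rw [e]
    exact Ideal.add_mem _ (Ideal.sub_mem _ (Ideal.add_mem _ (Ideal.sub_mem _ (Ideal.sub_mem _
      (Ideal.add_mem _ h1 t1) t2) (Ideal.mul_mem_left _ _ t3)) (Ideal.mul_mem_left _ _ t4))
      (Ideal.mul_mem_right _ _ h2)) (Ideal.mul_mem_right _ _ h2)
  -- conclusion
  obtain ⟨b, hb⟩ := exists_basis_range H.ρ.finrank_eq f d htr rfl hdu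
  have hker := range_eq_ker H.ρ.finrank_eq f d htr rfl hdu
  refine ⟨LinearMap.range (f - 1), ⟨b, hb⟩, ?_, ?_⟩
  · rintro g hg v ⟨u, rfl⟩
    rw [hker, LinearMap.mem_ker]
    have := congrArg (fun x : Module.End T H.ρ.V => x u) (hB g hg s hsI)
    simpa only [Module.End.mul_apply, LinearMap.zero_apply] using this
  · intro σ hσ v
    rw [hker, LinearMap.mem_ker]
    have := congrArg (fun x : Module.End T H.ρ.V => x v) (hB 1 (one_mem _) σ hσ)
    simpa only [Module.End.mul_apply, LinearMap.zero_apply, map_one, Module.End.one_apply,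
      LinearMap.sub_apply] using this

end Fermat.Agent.S33
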