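import Fermat.Agent.S31.TraceKernel

/-!
# S33, top layer, part 3 (helper93): linear algebra over the coefficient ring

* `exists_noncomm` : a residually absolutely irreducible representation is not commutative modulo
  the maximal ideal, and this is detected by traces;
* `exists_basis_range` : an endomorphism `f` of a free module of rank two over a local ring with
  `tr f = 1 + d`, `det f = d`, `d - 1` a unit: the range of `f - 1` is a free direct summand of
  rank one and equals the kernel of `f - d`.
-/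

set_option autoImplicit false

namespace Fermat.Agent.S33

open IsLocalRing Fermat.Agent.S31

variable {T : Type} [CommRing T] [IsLocalRing T]

theorem exists_noncomm (ρ : GaloisRepAdic T) (habs : ρ.residual.IsAbsolutelyIrreducible) :
    ∃ h1 h2 h3 : Gal, LinearMap.trace T ρ.V (ρ.ρ (h1 * h2 * h3)) -
      LinearMap.trace T ρ.V (ρ.ρ (h2 * h1 * h3)) ∉ maximalIdeal T := by
  by_contra hcon
  push Not at hcon
  let B : Module.Basis (Fin 2) T ρ.V := Module.finBasisOfFinrankEq _ _ ρ.finrank_eq
  have hspan := span_toMatrix_eq_top ρ habs B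
  let M : Gal → Matrix (Fin 2) (Fin 2) T := fun σ => LinearMap.toMatrix B B (ρ.ρ σ)
  have h0 : ∀ h1 h2 h3 : Gal,
      Matrix.trace ((M h1 * M h2 - M h2 * M h1) * M h3) ∈ maximalIdeal T := by
    intro h1 h2 h3
    have := hcon h1 h2 h3
    rw [LinearMap.trace_eq_matrix_trace T B, LinearMap.trace_eq_matrix_trace T B,
      map_mul ρ.ρ, map_mul ρ.ρ, map_mul ρ.ρ, map_mul ρ.ρ, LinearMap.toMatrix_mul,
      LinearMap.toMatrix_mul, LinearMap.toMatrix_mul,
      LinearMap.toMatrix_mul, ← Matrix.trace_sub, ← Matrix.sub_mul] at this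
    exact this
  have hmem : ∀ Y : Matrix (Fin 2) (Fin 2) T,
      Y ∈ Submodule.span T (Set.range fun σ : Gal => LinearMap.toMatrix B B (ρ.ρ σ)) := by
    intro Y; rw [hspan]; trivial
  have h1 : ∀ (h1 h2 : Gal) (Y : Matrix (Fin 2) (Fin 2) T),
      Matrix.trace ((M h1 * M h2 - M h2 * M h1) * Y) ∈ maximalIdeal T := by
    intro h1 h2 Y
    induction hmem Y using Submodule.span_induction with
    | mem Y hY => obtain ⟨σ, rfl⟩ := hY; exact h0 h1 h2 σ
    | zero => simp
    | add Y Z _ _ hY hZ => rw [Matrix.mul_add, Matrix.trace_add]; exact add_mem hY hZ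
    | smul a Y _ hY =>
      rw [Matrix.mul_smul, Matrix.trace_smul]; exact Ideal.mul_mem_left _ _ hY
  have h2 : ∀ (h1 : Gal) (Y2 Y : Matrix (Fin 2) (Fin 2) T),
      Matrix.trace ((M h1 * Y2 - Y2 * M h1) * Y) ∈ maximalIdeal T := by
    intro g Y2 Y
    induction hmem Y2 using Submodule.span_induction with
    | mem Y2 hY => obtain ⟨σ, rfl⟩ := hY; exact h1 g σ Y
    | zero => simp
    | add Y2 Z _ _ hY hZ =>
      have : (M g * (Y2 + Z) - (Y2 + Z) * M g) * Y =
          (M g * Y2 - Y2 * M g) * Y + (M g * Z - Z * M g) * Y := by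
        noncomm_ring
      rw [this, Matrix.trace_add]; exact add_mem hY hZ
    | smul a Y2 _ hY =>
      have : (M g * (a • Y2) - (a • Y2) * M g) * Y = a • ((M g * Y2 - Y2 * M g) * Y) := by
        rw [Matrix.mul_smul, Matrix.smul_mul, ← smul_sub, Matrix.smul_mul]
      rw [this, Matrix.trace_smul]; exact Ideal.mul_mem_left _ _ hY
  have h3 : ∀ (Y1 Y2 Y : Matrix (Fin 2) (Fin 2) T),
      Matrix.trace ((Y1 * Y2 - Y2 * Y1) * Y) ∈ maximalIdeal T := by
    intro Y1 Y2 Y
    induction hmem Y1 using Submodule.span_induction with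
    | mem Y1 hY => obtain ⟨σ, rfl⟩ := hY; exact h2 σ Y2 Y
    | zero => simp
    | add Y1 Z _ _ hY hZ =>
      have : ((Y1 + Z) * Y2 - Y2 * (Y1 + Z)) * Y =
          (Y1 * Y2 - Y2 * Y1) * Y + (Z * Y2 - Y2 * Z) * Y := by
        noncomm_ring
      rw [this, Matrix.trace_add]; exact add_mem hY hZ
    | smul a Y1 _ hY =>
      have : ((a • Y1) * Y2 - Y2 * (a • Y1)) * Y = a • ((Y1 * Y2 - Y2 * Y1) * Y) := by
        rw [Matrix.mul_smul, Matrix.smul_mul, ← smul_sub, Matrix.smul_mul]
      rw [this, Matrix.trace_smul]; exact Ideal.mul_mem_left _ _ hY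
  have h4 := h3 !![0, 1; 0, 0] !![0, 0; 1, 0] !![1, 0; 0, 0]
  have h5 : Matrix.trace ((!![0, 1; 0, 0] * !![0, 0; 1, 0] - !![0, 0; 1, 0] * !![0, 1; 0, 0]) *
      !![1, 0; 0, 0] : Matrix (Fin 2) (Fin 2) T) = 1 := by
    simp [Matrix.trace_fin_two]
  rw [h5] at h4
  exact (Ideal.ne_top_iff_one _).1 (maximalIdeal.isMaximal T).ne_top h4


section Rank2

variable {V : Type*} [AddCommGroup V] [Module T V]

omit [IsLocalRing T] in
theorem apply_basis_eq (B : Module.Basis (Fin 2) T V) (e : Module.End T V) (j : Fin 2) :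
    e (B j) = LinearMap.toMatrix B B e 0 j • B 0 + LinearMap.toMatrix B B e 1 j • B 1 := by
  rw [LinearMap.toMatrix_apply, LinearMap.toMatrix_apply]
  conv_lhs => rw [← B.sum_repr (e (B j)), Fin.sum_univ_two]

omit [IsLocalRing T] in
/-- The case where the upper left entry is a unit. -/
theorem exists_basis_range_aux (B : Module.Basis (Fin 2) T V) (e : Module.End T V)
    (hdet : LinearMap.toMatrix B B e 0 0 * LinearMap.toMatrix B B e 1 1 =
      LinearMap.toMatrix B B e 0 1 * LinearMap.toMatrix B B e 1 0)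
    (hu : IsUnit (LinearMap.toMatrix B B e 0 0)) :
    ∃ b : Module.Basis (Fin 2) T V, LinearMap.range e = Submodule.span T {b 0} := by
  set α := LinearMap.toMatrix B B e 0 0 with hα
  set β := LinearMap.toMatrix B B e 1 1 with hβ
  set y := LinearMap.toMatrix B B e 0 1 with hy
  set z := LinearMap.toMatrix B B e 1 0 with hz
  have e0 : e (B 0) = α • B 0 + z • B 1 := apply_basis_eq B e 0
  have e1 : e (B 1) = y • B 0 + β • B 1 := apply_basis_eq B e 1
  let v : Fin 2 → V := ![e (B 0), B 1]
  have hv : IsUnit (B.det v) := by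
    have : B.det v = α := by
      rw [Module.Basis.det_apply, Matrix.det_fin_two]
      simp only [Module.Basis.toMatrix_apply, v, Matrix.cons_val_zero, Matrix.cons_val_one]
      rw [e0]
      simp
    rw [this]; exact hu
  obtain ⟨hli, hsp⟩ := (B.is_basis_iff_det).2 hv
  refine ⟨Module.Basis.mk hli hsp.ge, ?_⟩
  have hb0 : Module.Basis.mk hli hsp.ge 0 = e (B 0) := by
    rw [Module.Basis.mk_apply]; rfl
  rw [hb0]
  obtain ⟨u, hu'⟩ := hu
  have e1' : e (B 1) = ((↑u⁻¹ : T) * y) • e (B 0) := by
    rw [e0, e1, smul_add, smul_smul, smul_smul]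
    congr 1
    · rw [← hu']
      congr 1
      rw [mul_right_comm, Units.inv_mul, one_mul]
    · congr 1
      rw [mul_assoc, ← hdet, ← hu', Units.inv_mul_cancel_left]
  apply le_antisymm
  · rintro _ ⟨x, rfl⟩
    rw [← B.sum_repr x, Fin.sum_univ_two, map_add, map_smul, map_smul, e1', smul_smul, ← add_smul]
    exact Submodule.smul_mem _ _ (Submodule.mem_span_singleton_self _)
  · rw [Submodule.span_singleton_le_iff_mem]
    exact ⟨B 0, rfl⟩

variable [Module.Free T V] [Module.Finite T V]

/-- The range of `f - 1` is a free direct summand of rank one. -/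
theorem exists_basis_range (hV : Module.finrank T V = 2) (f : Module.End T V) (d : T)
    (htr : LinearMap.trace T V f = 1 + d) (hdet : LinearMap.det f = d) (hd : IsUnit (d - 1)) :
    ∃ b : Module.Basis (Fin 2) T V, LinearMap.range (f - 1) = Submodule.span T {b 0} := by
  let B : Module.Basis (Fin 2) T V := Module.finBasisOfFinrankEq _ _ hV
  have hM : ∀ B : Module.Basis (Fin 2) T V, LinearMap.toMatrix B B (f - 1) =
      LinearMap.toMatrix B B f - 1 := by
    intro B
    rw [map_sub, LinearMap.toMatrix_one]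
  have key : ∀ B : Module.Basis (Fin 2) T V,
      LinearMap.toMatrix B B (f - 1) 0 0 * LinearMap.toMatrix B B (f - 1) 1 1 =
        LinearMap.toMatrix B B (f - 1) 0 1 * LinearMap.toMatrix B B (f - 1) 1 0 ∧
      LinearMap.toMatrix B B (f - 1) 0 0 + LinearMap.toMatrix B B (f - 1) 1 1 = d - 1 := by
    intro B
    have h1 := htr
    have h2 := hdet
    rw [LinearMap.trace_eq_matrix_trace T B, Matrix.trace_fin_two] at h1
    rw [← LinearMap.det_toMatrix B, Matrix.det_fin_two] at h2
    rw [hM B]
    simp only [Matrix.sub_apply, Matrix.one_apply_eq, Matrix.one_apply_ne (zero_ne_one),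
      Matrix.one_apply_ne (one_ne_zero), sub_zero]
    constructor
    · linear_combination h2 - h1
    · linear_combination h1
  obtain ⟨k1, k2⟩ := key B
  rw [← k2] at hd
  rcases IsLocalRing.isUnit_or_isUnit_of_isUnit_add hd with hu | hu
  · exact exists_basis_range_aux B (f - 1) k1 hu
  · let B' : Module.Basis (Fin 2) T V := B.reindex (Equiv.swap 0 1)
    have hB' : ∀ i j, LinearMap.toMatrix B' B' (f - 1) i j =
        LinearMap.toMatrix B B (f - 1) (Equiv.swap 0 1 i) (Equiv.swap 0 1 j) := by
      intro i j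
      simp [B', LinearMap.toMatrix_apply]
    apply exists_basis_range_aux B' (f - 1)
    · rw [hB', hB', hB', hB']
      simp only [Equiv.swap_apply_left, Equiv.swap_apply_right]
      linear_combination k1
    · rw [hB']
      simpa using hu

/-- The range of `f - 1` is the kernel of `f - d`. -/
theorem range_eq_ker (hV : Module.finrank T V = 2) (f : Module.End T V) (d : T)
    (htr : LinearMap.trace T V f = 1 + d) (hdet : LinearMap.det f = d) (hd : IsUnit (d - 1)) :
    LinearMap.range (f - 1) = LinearMap.ker (f - d • (1 : Module.End T V)) := by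
  have hCH : (f - d • (1 : Module.End T V)) * (f - 1) = 0 := by
    have h := LinearMap.aeval_self_charpoly f
    have hc : LinearMap.charpoly f =
        Polynomial.X ^ 2 - Polynomial.C (1 + d) * Polynomial.X + Polynomial.C d := by
      let b : Module.Basis (Fin 2) T V := Module.finBasisOfFinrankEq _ _ hV
      rw [← LinearMap.charpoly_toMatrix f b, Matrix.charpoly_fin_two, ← htr, ← hdet,
        LinearMap.trace_eq_matrix_trace T b, LinearMap.det_toMatrix]
    rw [hc] at h
    simp only [map_add, map_sub, map_mul, map_pow, Polynomial.aeval_X, Polynomial.aeval_C,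
      Module.algebraMap_end_eq_smul_id] at h
    rw [← h]
    ext v
    simp [pow_two, smul_sub]
    abel
  apply le_antisymm
  · rintro _ ⟨x, rfl⟩
    rw [LinearMap.mem_ker, ← Module.End.mul_apply, hCH, LinearMap.zero_apply]
  · intro y hy
    rw [LinearMap.mem_ker, LinearMap.sub_apply, LinearMap.smul_apply, Module.End.one_apply,
      sub_eq_zero] at hy
    obtain ⟨u, hu⟩ := hd
    refine ⟨(↑u⁻¹ : T) • y, ?_⟩
    have h1 : d • y - y = (d - 1) • y := by rw [sub_smul, one_smul]
    rw [map_smul, LinearMap.sub_apply, Module.End.one_apply, hy, h1, ← hu, smul_smul,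
      Units.inv_mul, one_smul]

end Rank2

end Fermat.Agent.S33
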