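import Fermat.Agent.S33.TopTransfer
import Fermat.Agent.S33.TopLin

/-!
# S33, top layer (helper93): the two inputs of the top theorem

`S33` follows from a universal tower `U : UTower N p S` and
* `InertiaCyclo p` : inertia above `p` acts non trivially on `μ_p`;
* `OrdinaryAt U θ'` : the geometric input, at finite level, with information on `p`-torsion only.
-/

set_option autoImplicit false

namespace Fermat.Agent.S33

open Fermat.Agent.S30 Fermat.Agent.GAL

/-- Inertia above `p` acts non trivially on the `p`-th roots of unity. -/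
def InertiaCyclo (p : ℕ) : Prop :=
  ∀ P : ValuationSubring (AlgebraicClosure ℚ), P.LiesOverPrime p →
    ∃ s ∈ P.inertiaSubgroupIn ℚ, ∃ a : ℕ, IsCyc p 1 s a ∧ ¬ a ≡ 1 [MOD p]

/-- The geometric input at `p`.  `θ'` is the residual eigensystem on the abstract Hecke algebra.
For every layer there are a Hecke polynomial `E` with `θ' E ≠ 0` (it cuts out the `θ'`-part
`E • W_k`) and a subgroup `K` (the classes which are trivial at the valuation `v_∞`) such that
* `E • W_k` is `θ'`-primary;
* `K` is stable under the decomposition group;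
* inertia acts trivially on `E • W_k` modulo `K`;
* inertia acts through the cyclotomic character on the `p`-torsion of `K ∩ E • W_k`. -/
def OrdinaryAt {N p : ℕ} [NeZero N] {S : Finset ℕ} (U : UTower N p S) {κ : Type*} [Field κ]
    (θ' : HA →+* κ) : Prop :=
  ∀ P : ValuationSubring (AlgebraicClosure ℚ), P.LiesOverPrime p → ∀ k : ℕ,
    ∃ (E : HA) (K : AddSubgroup (U.W k)), θ' E ≠ 0 ∧
      (∀ Q : HA, θ' Q = 0 → ∀ w : U.W k, ∃ n : ℕ, Q ^ n • E • w = 0) ∧
      (∀ g ∈ P.decompositionSubgroup ℚ, ∀ x ∈ K, U.ρ k g x ∈ K) ∧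
      (∀ σ ∈ P.inertiaSubgroupIn ℚ, ∀ w : U.W k, U.ρ k σ (E • w) - E • w ∈ K) ∧
      (∀ σ ∈ P.inertiaSubgroupIn ℚ, ∀ a : ℕ, IsCyc p 1 σ a → ∀ x ∈ K, p • x = 0 →
        (∃ w, x = E • w) → U.ρ k σ x = a • x)

end Fermat.Agent.S33
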