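import Fermat.Agent.S34.Top
import Fermat.Agent.S33.TopAlg

/-!
# S33, top layer, part 2 (helper93): transfer between the tower and the datum

* `exists_rep` : on the `k`-th layer, `g + ε(g) g⁻¹` acts as a Hecke polynomial `Q` whose image in
  `T` is congruent to `tr ρ(g)`;
* `det_sub_natCast_mem` : `det ρ(g)` is the cyclotomic character;
* `exists_transfer` : a Hecke polynomial killing the `θ`-part of a deep layer is small in `T`;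
* `exists_noncomm` : non commutativity of a residually absolutely irreducible representation,
  detected by traces.
-/

set_option autoImplicit false
set_option linter.unusedSectionVars false

namespace Fermat.Agent.S33

open Polynomial IsLocalRing CuspForm Fermat.Agent.S30 Fermat.Agent.S31 Fermat.Agent.GAL

variable {p : ℕ} {N : ℕ} [NeZero N] {S : Finset ℕ}

/-- The evaluation of abstract Hecke polynomials in the Hecke algebra. -/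
noncomputable def evHA (N : ℕ) [NeZero N] (S : Finset ℕ) : HA →+* heckeAlgebra N 2 (↑S : Set ℕ) :=
  (MvPolynomial.aeval (heckeFun N S) : HA →ₐ[ℤ] heckeAlgebra N 2 (↑S : Set ℕ)).toRingHom

theorem evHA_lucas {ℓ : ℕ} (hℓ : ℓ.Prime) (hℓN : ¬ ℓ ∣ N) (hℓS : ℓ ∉ (↑S : Set ℕ)) (w : ℕ) :
    evHA N S (lucas (MvPolynomial.X ℓ : HA) (ℓ : HA) w) =
      lucas (heckeAlgebra.T hℓ hℓN hℓS : heckeAlgebra N 2 (↑S : Set ℕ)) (ℓ : _) w := by
  rw [map_lucas, map_natCast]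
  congr 1
  simp only [evHA, AlgHom.toRingHom_eq_coe, RingHom.coe_coe, MvPolynomial.aeval_X]
  exact heckeFun_eq hℓ hℓN hℓS

variable {𝒪 : Type} [CommRing 𝒪] [IsDomain 𝒪] [IsDiscreteValuationRing 𝒪]
  [IsAdicComplete (IsLocalRing.maximalIdeal 𝒪) 𝒪]
  {θ : CuspForm.heckeAlgebra N 2 (↑S : Set ℕ) →+* IsLocalRing.ResidueField 𝒪}
  {T : Type} [CommRing T] [IsLocalRing T] [IsNoetherianRing T]
  [IsAdicComplete (IsLocalRing.maximalIdeal T) T] [Algebra 𝒪 T] [IsLocalHom (algebraMap 𝒪 T)]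
  [Module.Finite 𝒪 T] [Module.Free 𝒪 T]

theorem natCast_mem_maximalIdeal (hp𝒪 : (p : 𝒪) ∈ IsLocalRing.maximalIdeal 𝒪) :
    (p : T) ∈ maximalIdeal T := by
  have h1 : (p : T) = algebraMap 𝒪 T (p : 𝒪) := by simp
  rw [h1]
  exact map_nonunit (algebraMap 𝒪 T) _ hp𝒪

/-- Two Galois elements which agree on the field of level `k` act in the same way. -/
theorem rho_eq_of_agree (U : UTower N p S) (k : ℕ) {L : IntermediateField ℚ (AlgebraicClosure ℚ)}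
    (hL : ∀ σ : GQ, (∀ x ∈ L, σ x = x) → U.ρ k σ = 1) {g g' : GQ} (h : ∀ x ∈ L, g' x = g x) :
    U.ρ k g' = U.ρ k g := by
  have h1 : U.ρ k (g⁻¹ * g') = 1 := by
    apply hL
    intro x hx
    rw [AlgEquiv.mul_apply, h x hx]
    exact AlgEquiv.symm_apply_apply g x
  have h2 : U.ρ k g' = U.ρ k g * U.ρ k (g⁻¹ * g') := by
    rw [← map_mul, mul_inv_cancel_left]
  rw [h2, h1, mul_one]

theorem rho_inv_eq_of_eq (U : UTower N p S) (k : ℕ) {g g' : GQ} (h : U.ρ k g' = U.ρ k g) :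
    U.ρ k g'⁻¹ = U.ρ k g⁻¹ := by
  have h1 : U.ρ k g'⁻¹ * U.ρ k g = 1 := by
    rw [← h, ← map_mul, inv_mul_cancel, map_one]
  calc U.ρ k g'⁻¹ = U.ρ k g'⁻¹ * (U.ρ k g * U.ρ k g⁻¹) := by
        rw [← map_mul (U.ρ k) g, mul_inv_cancel, map_one, mul_one]
    _ = U.ρ k g⁻¹ := by rw [← mul_assoc, h1, one_mul]

/-- **Representability of the trace.** -/
theorem exists_rep [Fact p.Prime] (hpS : p ∈ S) (hNS : ∀ q : ℕ, q.Prime → q ∣ N → q ∈ S)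
    (H : CuspForm.HeckeGaloisRepDatum N (↑S : Set ℕ) 𝒪 θ T) (U : UTower N p S) (n k : ℕ) (g : GQ)
    (a : ℕ) (ha : IsCyc p k g a) :
    ∃ Q : HA, Rep (U.ρ k) g a Q ∧
      LinearMap.trace T H.ρ.V (H.ρ.ρ g) - H.π (evHA N S Q) ∈ maximalIdeal T ^ n := by
  obtain ⟨L₁, hL₁fin, hL₁⟩ := H.ρ.isAdicContinuous n
  obtain ⟨L₂, hL₂fin, hL₂⟩ := U.finiteLevel k
  obtain ⟨L₃, hL₃fin, hL₃⟩ := exists_cycloField p k
  have hfin12 : FiniteDimensional ℚ (L₁ ⊔ L₂ : IntermediateField ℚ (AlgebraicClosure ℚ)) :=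
    IntermediateField.finiteDimensional_sup L₁ L₂
  have hfin : FiniteDimensional ℚ (L₁ ⊔ L₂ ⊔ L₃ : IntermediateField ℚ (AlgebraicClosure ℚ)) :=
    IntermediateField.finiteDimensional_sup (L₁ ⊔ L₂) L₃
  obtain ⟨ℓ, A, σ, w, hℓ, hℓS, hA, hσ, hw⟩ := frobPowDense (L₁ ⊔ L₂ ⊔ L₃) hfin S g
  have hle₁ : L₁ ≤ L₁ ⊔ L₂ ⊔ L₃ := le_sup_left.trans le_sup_left
  have hle₂ : L₂ ≤ L₁ ⊔ L₂ ⊔ L₃ := le_sup_right.trans le_sup_left
  have hle₃ : L₃ ≤ L₁ ⊔ L₂ ⊔ L₃ := le_sup_right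
  have hℓN : ¬ ℓ ∣ N := fun hd => hℓS (hNS ℓ hℓ hd)
  have hℓS1 : ℓ ∉ (↑S : Set ℕ) := by simpa using hℓS
  have hℓp : ℓ ≠ p := fun h => hℓS (h ▸ hpS)
  have hρ : U.ρ k (σ ^ w) = U.ρ k g := rho_eq_of_agree U k hL₂ (fun x hx => hw x (hle₂ hx))
  have hρinv := rho_inv_eq_of_eq U k hρ
  have hcyc : ℓ ^ w ≡ a [MOD p ^ k] := by
    have h1 : IsCyc p k (σ ^ w) (ℓ ^ w) := (isCyc_frob hℓ hℓp ⟨A, hA, hσ⟩).pow w
    have h3 : IsCyc p k (σ ^ w) a := ha.congr (fun μ hμ => hw μ (hle₃ (hL₃ μ hμ)))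
    exact h1.modEq h3
  refine ⟨lucas (MvPolynomial.X ℓ : HA) (ℓ : HA) w, ?_, ?_⟩
  · intro v
    rw [lucas_smul U k hℓ hℓS ⟨A, hA, hσ⟩ w v, hρ, hρinv,
      nsmul_eq_of_modEq hcyc _ (U.pow_smul k _)]
  · have h1 := trace_sub_trace_mem H.ρ n L₁ hL₁ g (σ ^ w) (fun x hx => (hw x (hle₁ hx)).symm)
    rw [trace_frob_pow H hℓ hℓN hℓS1 A hA σ hσ w] at h1
    rw [evHA_lucas hℓ hℓN hℓS1]
    exact h1

/-- **The determinant is the cyclotomic character.** -/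
theorem det_sub_natCast_mem [Fact p.Prime] (hp𝒪 : (p : 𝒪) ∈ IsLocalRing.maximalIdeal 𝒪)
    (hpS : p ∈ S) (hNS : ∀ q : ℕ, q.Prime → q ∣ N → q ∈ S)
    (H : CuspForm.HeckeGaloisRepDatum N (↑S : Set ℕ) 𝒪 θ T) (n : ℕ) (g : GQ)
    (a : ℕ) (ha : IsCyc p n g a) :
    LinearMap.det (H.ρ.ρ g) - (a : T) ∈ maximalIdeal T ^ n := by
  have hpT : (p : T) ∈ maximalIdeal T := natCast_mem_maximalIdeal hp𝒪
  obtain ⟨L₁, hL₁fin, hL₁⟩ := H.ρ.isAdicContinuous n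
  obtain ⟨L₃, hL₃fin, hL₃⟩ := exists_cycloField p n
  have hfin : FiniteDimensional ℚ (L₁ ⊔ L₃ : IntermediateField ℚ (AlgebraicClosure ℚ)) :=
    IntermediateField.finiteDimensional_sup L₁ L₃
  obtain ⟨ℓ, A, σ, w, hℓ, hℓS, hA, hσ, hw⟩ := frobPowDense (L₁ ⊔ L₃) hfin S g
  have hle₁ : L₁ ≤ L₁ ⊔ L₃ := le_sup_left
  have hle₃ : L₃ ≤ L₁ ⊔ L₃ := le_sup_right
  have hℓN : ¬ ℓ ∣ N := fun hd => hℓS (hNS ℓ hℓ hd)
  have hℓS1 : ℓ ∉ (↑S : Set ℕ) := by simpa using hℓS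
  have hℓp : ℓ ≠ p := fun h => hℓS (h ▸ hpS)
  have hcyc : ℓ ^ w ≡ a [MOD p ^ n] := by
    have h1 : IsCyc p n (σ ^ w) (ℓ ^ w) := (isCyc_frob hℓ hℓp ⟨A, hA, hσ⟩).pow w
    have h3 : IsCyc p n (σ ^ w) a := ha.congr (fun μ hμ => hw μ (hle₃ (hL₃ μ hμ)))
    exact h1.modEq h3
  have h1 := Fermat.Agent.S34.det_sub_det_mem H.ρ n L₁ hL₁ g (σ ^ w)
    (fun x hx => (hw x (hle₁ hx)).symm)
  have hdet : LinearMap.det (H.ρ.ρ (σ ^ w)) = ((ℓ ^ w : ℕ) : T) := by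
    rw [map_pow, map_pow, Fermat.Agent.S34.det_eq_of_charpoly H.ρ.finrank_eq _ _ _
      (H.charpoly_frob ℓ hℓ hℓN hℓS1 A hA σ hσ)]
    push_cast
    rfl
  rw [hdet] at h1
  have h2 := natCast_sub_mem_of_modEq p hpT hcyc
  have := Ideal.add_mem _ h1 h2
  convert this using 1
  abel

/-- An element of the Hecke algebra with nonzero image under `θ` is a unit in `T`. -/
theorem isUnit_π (H : CuspForm.HeckeGaloisRepDatum N (↑S : Set ℕ) 𝒪 θ T)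
    {t : heckeAlgebra N 2 (↑S : Set ℕ)} (ht : θ t ≠ 0) : IsUnit (H.π t) := by
  rw [← IsLocalRing.notMem_maximalIdeal, ← IsLocalRing.residue_eq_zero_iff, H.residue_π]
  exact (_root_.map_ne_zero _).2 ht

theorem θ_ne_zero_of_notMem (H : CuspForm.HeckeGaloisRepDatum N (↑S : Set ℕ) 𝒪 θ T)
    {t : heckeAlgebra N 2 (↑S : Set ℕ)} (ht : H.π t ∉ maximalIdeal T) : θ t ≠ 0 := by
  intro h
  apply ht
  rw [← IsLocalRing.residue_eq_zero_iff, H.residue_π, h, map_zero]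

/-- **Transfer.** -/
theorem exists_transfer (hp𝒪 : (p : 𝒪) ∈ IsLocalRing.maximalIdeal 𝒪)
    (H : CuspForm.HeckeGaloisRepDatum N (↑S : Set ℕ) 𝒪 θ T) (U : UTower N p S) :
    ∃ c : ℕ, ∀ (n : ℕ) (Q E : HA), θ (evHA N S E) ≠ 0 →
      (∀ w : U.W (n + c), Q • E • w = 0) → H.π (evHA N S Q) ∈ maximalIdeal T ^ n := by
  have hpT : (p : T) ∈ maximalIdeal T := natCast_mem_maximalIdeal hp𝒪
  obtain ⟨c, hc⟩ := exists_shift U.ι U.ι_injective p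
  refine ⟨c, fun n Q E hE hkill => ?_⟩
  obtain ⟨E', hE'⟩ := U.faithful (n + c) (Q * E) (fun w => by rw [mul_smul]; exact hkill w)
  obtain ⟨b, hb⟩ := hc n _ E' hE'
  have h1 : H.π (evHA N S Q) * H.π (evHA N S E) = (p : T) ^ n * H.π b := by
    rw [← map_mul, ← map_mul]
    have : evHA N S (Q * E) = (p : heckeAlgebra N 2 (↑S : Set ℕ)) ^ n * b := hb
    rw [this, map_mul, map_pow, map_natCast]
  obtain ⟨u, hu⟩ := isUnit_π H hE
  have h2 : H.π (evHA N S Q) = (p : T) ^ n * H.π b * (↑u⁻¹ : T) := by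
    rw [← h1, ← hu, mul_assoc, Units.mul_inv, mul_one]
  rw [h2]
  exact Ideal.mul_mem_right _ _ (Ideal.mul_mem_right _ _ (Ideal.pow_mem_pow hpT n))

end Fermat.Agent.S33
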